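/-
S36lib / Val / Level  (helper9)

**Level-generic Gauss datum at the cusp `∞`.**  S18's Gauss subring
`gaussSubring N A = {a / b : a, b ∈ IntRing N A, b̄ ≠ 0}` is defined at EVERY level `N`.  The
predicate `IsGaussLevel N A` says it is a valuation ring of `FBar N` whose value group is that of
`A` (every `f ≠ 0` is a constant times a unit).  Under it, `levelDatum` is a
`GaussDatum A (FBar N) (FRes A N)` with carrier the Gauss subring and reduction map `subRed`
(coefficientwise reduction of integral `t`-series).

* base case: `isGaussLevel_of_not_dvd` (`ℓ ∤ N`, `A` over `ℓ`: S18's unconditional decomposition);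
* the step `N ↦ N q` (ANY `N`, `q ∣ N` allowed) is in `S36lib/Val/Step.lean`.
-/
import Mathlib
import Fermat.Agent.LSb.Val.D1H

set_option autoImplicit false
set_option linter.unusedSectionVars false
set_option linter.unusedVariables false
set_option linter.style.haveILetI false

noncomputable section

namespace Fermat.Agent.S36lib.Val

open ModularCurve Fermat.Agent.S18lib Fermat.Agent.S18lib.V Fermat.Agent.LSb.Val

local notation "Qb" => AlgebraicClosure ℚ

/-- The Gauss subring of level `N` is a valuation ring with the value group of `A`. -/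
structure IsGaussLevel (N : ℕ) [NeZero N] (A : ValuationSubring Qb) : Prop where
  mem_or_inv_mem : ∀ x : FBar N, x ∈ gaussSubring N A ∨ x⁻¹ ∈ gaussSubring N A
  exists_const : ∀ f : FBar N, f ≠ 0 → ∃ c : Qb, c ≠ 0 ∧
    algebraMap Qb (FBar N) c * f ∈ gaussSubring N A ∧
      (algebraMap Qb (FBar N) c * f)⁻¹ ∈ gaussSubring N A

section Datum

variable {N : ℕ} [NeZero N] {A : ValuationSubring Qb}

local notation "kA" => IsLocalRing.ResidueField A

/-- the valuation ring of the Gauss valuation of level `N` -/
def levelRing (h : IsGaussLevel N A) : ValuationSubring (FBar N) :=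
  { gaussSubring N A with
    mem_or_inv_mem' := h.mem_or_inv_mem }

theorem mem_levelRing (h : IsGaussLevel N A) {x : FBar N} :
    x ∈ levelRing h ↔ x ∈ gaussSubring N A := Iff.rfl

/-- the reduction map of the Gauss valuation of level `N` -/
def levelRed (h : IsGaussLevel N A) : levelRing h →+* FRes A N :=
  (subRed N A).comp
    (Subring.inclusion (le_of_eq rfl : (levelRing h).toSubring ≤ gaussSubring N A))

theorem levelRed_apply (h : IsGaussLevel N A) {x : FBar N} (hx : x ∈ levelRing h)
    {a b : IntRing N A} (hab : IsRep x a b) :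
    levelRed h ⟨x, hx⟩ = elemK a / elemK b :=
  subRed_apply hx hab

/-- **the Gauss datum of level `N`**, residue field `FRes A N` -/
def levelDatum (h : IsGaussLevel N A) : GaussDatum A (FBar N) (FRes A N) where
  O := levelRing h
  algebraMap_mem_iff := algebraMap_mem_gaussSubring_iff
  red := levelRed h
  red_surjective := by
    intro η
    obtain ⟨x, a, b, hx, hη⟩ := exists_isRep_of_FRes η
    exact ⟨⟨x, a, b, hx⟩, (levelRed_apply h _ hx).trans hη⟩
  red_algebraMap := by
    intro a ha
    have hrep : IsRep (algebraMap Qb (FBar N) (a : Qb)) (constI (N := N) a) 1 :=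
      ⟨by rw [elemK_one]; exact one_ne_zero, by rw [elemL_one, mul_one, elemL_constI]⟩
    rw [levelRed_apply h ha hrep, elemK_one, div_one, elemK_constI]
  exists_const_mul_isUnit := by
    intro f hf
    obtain ⟨c, hc, h1, h2⟩ := h.exists_const f hf
    have hcF : algebraMap Qb (FBar N) c ≠ 0 := (map_ne_zero (algebraMap Qb (FBar N))).mpr hc
    have hne : algebraMap Qb (FBar N) c * f ≠ 0 := mul_ne_zero hcF hf
    exact ⟨c, hc, ⟨⟨_, h1⟩, ⟨_, h2⟩, Subtype.ext (mul_inv_cancel₀ hne),
      Subtype.ext (inv_mul_cancel₀ hne)⟩, rfl⟩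

theorem mem_levelDatum_O (h : IsGaussLevel N A) {x : FBar N} :
    x ∈ (levelDatum h).O ↔ ∃ a b : IntRing N A, IsRep x a b := Iff.rfl

theorem levelDatum_O_le (h : IsGaussLevel N A) {x : FBar N} (hx : x ∈ (levelDatum h).O) :
    x ∈ gaussSubring N A := hx

theorem levelDatum_red_apply (h : IsGaussLevel N A) {x : FBar N} (hx : x ∈ (levelDatum h).O)
    {a b : IntRing N A} (hab : IsRep x a b) :
    (levelDatum h).red ⟨x, hx⟩ = elemK a / elemK b :=
  levelRed_apply h hx hab

theorem levelDatum_redF_apply (h : IsGaussLevel N A) {x : FBar N} {a b : IntRing N A}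
    (hab : IsRep x a b) : (levelDatum h).redF x = elemK a / elemK b := by
  have hx : x ∈ (levelDatum h).O := ⟨a, b, hab⟩
  rw [GaussDatum.redF_of_mem _ hx]
  exact levelDatum_red_apply h hx hab

/-- integral modular functions lie in `O` and reduce to their reduction -/
theorem elemL_mem_levelDatum_O (h : IsGaussLevel N A) (a : IntRing N A) :
    elemL a ∈ (levelDatum h).O :=
  ⟨a, 1, by rw [elemK_one]; exact one_ne_zero, by rw [elemL_one, mul_one]⟩

theorem levelDatum_redF_elemL (h : IsGaussLevel N A) (a : IntRing N A) :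
    (levelDatum h).redF (elemL a) = elemK a := by
  have hrep : IsRep (elemL a) a 1 :=
    ⟨by rw [elemK_one]; exact one_ne_zero, by rw [elemL_one, mul_one]⟩
  rw [levelDatum_redF_apply h hrep, elemK_one, div_one]

/-- **`q`-expansion principle**: integral Laurent series lying in `FBar N` are in `O`, and the
reduction is coefficientwise. -/
theorem mem_levelDatum_of_integral (h : IsGaussLevel N A) (y : LaurentSeries A)
    (hy : toL A y ∈ modularFunctionFieldBar N) :
    (⟨toL A y, hy⟩ : FBar N) ∈ (levelDatum h).O :=
  mem_gaussSubring_of_integral h.mem_or_inv_mem y hy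

theorem coe_levelDatum_redF_of_integral (h : IsGaussLevel N A) (y : LaurentSeries A)
    (hy : toL A y ∈ modularFunctionFieldBar N) :
    (((levelDatum h).redF (⟨toL A y, hy⟩ : FBar N) : FRes A N) : LaurentSeries kA) = toK A y := by
  rw [GaussDatum.redF_of_mem _ (mem_levelDatum_of_integral h y hy)]
  exact coe_subRed_of_integral h.mem_or_inv_mem y hy

end Datum

/-! ### the base case: good levels -/

section Base

variable (N : ℕ) [NeZero N] (A : ValuationSubring Qb) {ℓ : ℕ} [Fact ℓ.Prime]

/-- at a level prime to the residue characteristic the Gauss subring is a valuation ring with the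
value group of `A` (S18's unconditional Gauss datum). -/
theorem isGaussLevel_of_not_dvd (hℓN : ¬ ℓ ∣ N) (hA : A.LiesOverPrime ℓ) : IsGaussLevel N A where
  mem_or_inv_mem := mem_or_inv_mem_gaussSubring_U N A hℓN hA
  exists_const := by
    intro f hf
    obtain ⟨c, hc, u, hu⟩ := (gaussDatum N A hℓN hA).exists_const_mul_isUnit f hf
    refine ⟨c, hc, by rw [hu]; exact (u : (gaussDatum N A hℓN hA).O).2, ?_⟩
    rw [hu]
    have h1 : (((u⁻¹ : ((gaussDatum N A hℓN hA).O)ˣ) : (gaussDatum N A hℓN hA).O) : FBar N) =
        (((u : (gaussDatum N A hℓN hA).O) : FBar N))⁻¹ := by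
      have h2 : ((u : (gaussDatum N A hℓN hA).O) : FBar N) *
          (((u⁻¹ : ((gaussDatum N A hℓN hA).O)ˣ) : (gaussDatum N A hℓN hA).O) : FBar N) = 1 :=
        congrArg Subtype.val (u.mul_inv)
      exact eq_inv_of_mul_eq_one_right h2
    rw [← h1]
    exact ((u⁻¹ : ((gaussDatum N A hℓN hA).O)ˣ) : (gaussDatum N A hℓN hA).O).2

end Base

end Fermat.Agent.S36lib.Val
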