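/-
S36lib / Val / Step  (helper9)

**The step `N ↦ N q` of the Gauss valuation at the cusp `∞`, for ANY level `N`** (`q ∣ N` allowed).

If the Gauss subring of level `N` is a valuation ring with the value group of `A` (`IsGaussLevel N A`)
and `A` lies over `q`, then the same holds at level `N q`:  `FBar (N q)` is generated as a ring by
`FBar N` and the `j(t^(d q))`, `d ∣ N` (`LSb/Val/Kron`, already level-generic), each generator is
approximated by level-`N` Gauss-integral functions (Newton iteration on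
`Ψ(U) = Φ_q(U + j_d^q, j_d)`; Kronecker's congruence gives `Ψ(0) ≡ 0`, `Ψ'(0) ≡ j̄_d^(q²) - j̄_d ≠ 0`),
and the dense-extension theorem (`LSb/Val/Dense`) applies.  This is `LSb/Val/{SubRed,KronNewton,D1H}`
with the good base level replaced by an arbitrary `IsGaussLevel`.
-/
import Mathlib
import Fermat.Agent.S36lib.Val.Level

set_option autoImplicit false
set_option linter.unusedSectionVars false
set_option linter.unusedVariables false
set_option linter.style.haveILetI false

noncomputable section

namespace Fermat.Agent.S36lib.Val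

open ModularCurve Polynomial Fermat.Agent.S18lib Fermat.Agent.S18lib.V Fermat.Agent.S28lib
open Fermat.Agent.S37lib.ConjNorm Fermat.Agent.LSb.Val

local notation "Qb" => AlgebraicClosure ℚ

section Step

variable {N : ℕ} [NeZero N] (q : ℕ) [NeZero q] [Fact q.Prime] {A : ValuationSubring Qb}
  (h : IsGaussLevel N A) (hA : A.LiesOverPrime q)

local notation "kA" => IsLocalRing.ResidueField A

include hA in
/-- **the dense-extension data** for `FBar N ⊆ FBar (N q)` -/
theorem stepDenseData :
    DenseData A (alphaL N q) (levelDatum h).O (gaussSubring (N * q) A)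
      (subRed (N * q) A) ((q : ℕ) : Qb) where
  inv_mem_of_red_ne_zero := inv_mem_of_subRed_ne_zero
  map_mem := by
    rintro x ⟨a, b, hab⟩
    exact ⟨_, _, hab.incl A (Dvd.intro q rfl)⟩
  const_mem_iff := (levelDatum h).algebraMap_mem_iff
  const_mem := fun c hc => (algebraMap_mem_gaussSubring_iff c).mp hc
  value_group := by
    intro x hx
    obtain ⟨c, hc, h1, h2⟩ := h.exists_const x hx
    exact ⟨c, hc, h1, h2⟩
  pi_mem := by
    have h' : ((q : ℕ) : Qb) = ((q : ℤ) : Qb) := by push_cast; rfl
    rw [h']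
    exact intCast_mem A q
  pi_ne_zero := Nat.cast_ne_zero.mpr (NeZero.ne q)
  pi_inv_not_mem := by
    have h' : ((q : ℕ) : Qb) = ((q : ℤ) : Qb) := by push_cast; rfl
    have hmem : ((q : ℕ) : Qb) ∈ A := by rw [h']; exact intCast_mem A q
    exact (mem_nonunits_iff_inv_not_mem A hmem (Nat.cast_ne_zero.mpr (NeZero.ne q))).mp hA
  rank_one' := by
    intro c hc hcinv hc0 d hd
    have hcmax : (⟨c, hc⟩ : A) ∈ IsLocalRing.maximalIdeal A := by
      exact (A.valuation_lt_one_iff ⟨c, hc⟩).mpr
        (A.mem_nonunits_iff.mp ((mem_nonunits_iff_inv_not_mem A hc hc0).mpr hcinv))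
    by_cases hdA : d ∈ A
    · obtain ⟨n, hn⟩ := rankOne_of_liesOverPrime A hA ⟨c, hc⟩ hcmax ⟨d, hdA⟩
        (fun h => hd (congrArg Subtype.val h))
      refine ⟨n, fun hmem => hn ?_⟩
      refine ⟨⟨d * (c ^ n)⁻¹, hmem⟩, Subtype.ext ?_⟩
      show d = c ^ n * (d * (c ^ n)⁻¹)
      field_simp
    · exact ⟨0, by simpa using hdA⟩

/-! ### the Newton data of a generator -/

/-- `j(t^d)` is Gauss-integral at level `N` -/
theorem jd_mem_levelO (d : ℕ) [NeZero d] (hd : d ∣ N) : jd N d hd ∈ (levelDatum h).O := by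
  rw [← elemL_jI A N d hd]
  exact elemL_mem_levelDatum_O h _

/-- `j(t^d)` as an element of the level-`N` Gauss ring -/
def yLv (d : ℕ) [NeZero d] (hd : d ∣ N) : (levelDatum h).O :=
  ⟨jd N d hd, jd_mem_levelO h d hd⟩

theorem red_yLv (d : ℕ) [NeZero d] (hd : d ∣ N) :
    (levelDatum h).red (yLv h d hd) = elemK (jI A N d hd) := by
  have h1 := levelDatum_redF_elemL h (jI A N d hd)
  rw [GaussDatum.redF_of_mem _ (elemL_mem_levelDatum_O h _)] at h1
  rw [← h1]
  congr 1
  exact Subtype.ext (elemL_jI A N d hd).symm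

/-- constants `Zb → O_N` -/
def iotaLv : Zb →+* (levelDatum h).O :=
  (iotaFB N).codRestrict (levelDatum h).O
    (fun c => (levelDatum h).algebraMap_mem (Fermat.Agent.S18lib.Gink.intToA A c))

theorem coe_iotaLv (c : Zb) : ((iotaLv h c : (levelDatum h).O) : FBar N) = iotaFB N c := rfl

/-- `Φ_q(X, j_d)` over the Gauss ring -/
def phiLv (d : ℕ) [NeZero d] (hd : d ∣ N) : Polynomial (levelDatum h).O :=
  (phiZ q).map (Polynomial.eval₂RingHom (iotaLv h) (yLv h d hd))

/-- `Ψ(U) = Φ_q(U + j_d^q, j_d)` -/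
def psiLv (d : ℕ) [NeZero d] (hd : d ∣ N) : Polynomial (levelDatum h).O :=
  (phiLv q h d hd).comp (X + C (yLv h d hd ^ q))

include hA in
theorem red_phiLv (d : ℕ) [NeZero d] (hd : d ∣ N) :
    (phiLv q h d hd).map (levelDatum h).red =
      (X ^ q - C (elemK (jI A N d hd))) * (X - C (elemK (jI A N d hd) ^ q)) := by
  haveI := charP_FRes q A hA N
  rw [phiLv, Polynomial.map_map, comp_eval₂RingHom, red_yLv, phiZ_map_char]

theorem psiLv_eval_zero (d : ℕ) [NeZero d] (hd : d ∣ N) :
    (psiLv q h d hd).eval 0 = (phiLv q h d hd).eval (yLv h d hd ^ q) := by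
  rw [psiLv, eval_comp, eval_add, eval_X, eval_C, zero_add]

theorem psiLv_derivative_eval_zero (d : ℕ) [NeZero d] (hd : d ∣ N) :
    (psiLv q h d hd).derivative.eval 0 =
      (phiLv q h d hd).derivative.eval (yLv h d hd ^ q) := by
  rw [psiLv, derivative_comp, derivative_add, derivative_X, derivative_C, add_zero, one_mul,
    eval_comp, eval_add, eval_X, eval_C, zero_add]

include hA in
theorem psiLv_eval_zero_mem (d : ℕ) [NeZero d] (hd : d ∣ N) :
    (psiLv q h d hd).eval 0 ∈ IsLocalRing.maximalIdeal (levelDatum h).O := by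
  rw [← GaussDatum.red_eq_zero_iff, psiLv_eval_zero, ← eval₂_at_apply, ← eval_map,
    red_phiLv q h hA, map_pow, red_yLv]
  simp

include hA in
theorem psiLv_derivative_isUnit (d : ℕ) [NeZero d] (hd : d ∣ N) :
    IsUnit ((psiLv q h d hd).derivative.eval 0) := by
  rw [← GaussDatum.red_ne_zero_iff_isUnit, psiLv_derivative_eval_zero, ← eval₂_at_apply,
    ← eval_map, ← derivative_map, red_phiLv q h hA, map_pow, red_yLv]
  have h' := elemK_jI_pow_ne q A N d hd
  simpa [derivative_mul, derivative_sub, derivative_pow] using h'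

/-- the composite `O_N → O' → FBar (N q)` -/
theorem subtype_comp_stepPhi :
    (gaussSubring (N * q) A).subtype.comp (stepDenseData q h hA).phi =
      ((alphaL N q : FBar N →ₐ[Qb] FBar (N * q)) : FBar N →+* FBar (N * q)).comp
        (levelDatum h).O.subtype :=
  RingHom.ext fun _ => rfl

theorem psiLv_root (d : ℕ) [NeZero d] (hd : d ∣ N) :
    (psiLv q h d hd).eval₂ (stepDenseData q h hA).phi (uO N q A d hd) = 0 := by
  apply Subtype.ext
  have h1 := Polynomial.hom_eval₂ (psiLv q h d hd) (stepDenseData q h hA).phi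
    (gaussSubring (N * q) A).subtype (uO N q A d hd)
  show (gaussSubring (N * q) A).subtype _ = 0
  rw [h1, subtype_comp_stepPhi q h hA, psiLv, eval₂_comp, eval₂_add, eval₂_X, eval₂_C, phiLv, eval₂_map,
    comp_eval₂RingHom]
  have e1 : (((alphaL N q : FBar N →ₐ[Qb] FBar (N * q)) : FBar N →+* FBar (N * q)).comp
      (levelDatum h).O.subtype).comp (iotaLv h) = iotaFB (N * q) := by
    rw [← alphaL_comp_iotaFB N q]
    rfl
  have e2 : (((alphaL N q : FBar N →ₐ[Qb] FBar (N * q)) : FBar N →+* FBar (N * q)).comp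
      (levelDatum h).O.subtype) (yLv h d hd) =
      jd (N * q) d (hd.trans (Dvd.intro _ rfl)) := alphaL_jd N q d hd
  have e3 : (gaussSubring (N * q) A).subtype (uO N q A d hd) +
      (((alphaL N q : FBar N →ₐ[Qb] FBar (N * q)) : FBar N →+* FBar (N * q)).comp
        (levelDatum h).O.subtype) (yLv h d hd ^ q) =
      jd (N * q) (d * q) (Nat.mul_dvd_mul_right hd q) := by
    rw [map_pow, e2]
    show elemL (uI N q A d hd) + _ = _
    rw [elemL_uI]
    ring
  rw [e1, e2, e3]
  exact biEval₂_jd_mul (N * q) q d (hd.trans (Dvd.intro _ rfl)) (Nat.mul_dvd_mul_right hd q)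

/-- **every generator `j(t^(d q))` is approximable** -/
theorem isApprox_stepGen (d : ℕ) [NeZero d] (hd : d ∣ N) :
    (stepDenseData q h hA).IsApprox (jd (N * q) (d * q) (Nat.mul_dvd_mul_right hd q)) := by
  have h1 := (stepDenseData q h hA).isApprox_of_root (psiLv q h d hd)
    (subRed_uO N q A hA d hd) (psiLv_root q h hA d hd)
    (psiLv_eval_zero_mem q h hA d hd) (psiLv_derivative_isUnit q h hA d hd)
  have h2 : alphaL N q (jd N d hd ^ q) ∈ (stepDenseData q h hA).approxSubring :=
    (stepDenseData q h hA).map_mem_approx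
      ((levelDatum h).O.pow_mem (jd_mem_levelO h d hd) q)
  have h3 := Subring.add_mem _ ((stepDenseData q h hA).mem_approxSubring.mpr h1) h2
  have e : ((uO N q A d hd : gaussSubring (N * q) A) : FBar (N * q)) +
      alphaL N q (jd N d hd ^ q) = jd (N * q) (d * q) (Nat.mul_dvd_mul_right hd q) := by
    rw [map_pow, alphaL_jd]
    show elemL (uI N q A d hd) + _ = _
    rw [elemL_uI]
    ring
  rw [e] at h3
  exact h3

theorem isApprox_stepGenSet : ∀ θ ∈ genSet N q, (stepDenseData q h hA).IsApprox θ := by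
  rintro θ ⟨d, hd0, hd, rfl⟩
  exact isApprox_stepGen q h hA d hd

include h hA in
/-- **THE STEP**: the Gauss subring of level `N q` is a valuation ring with the value group of
`A`. -/
theorem IsGaussLevel.mul_prime : IsGaussLevel (N * q) A where
  mem_or_inv_mem x :=
    (stepDenseData q h hA).mem_or_inv_mem (genSet N q) (isApprox_stepGenSet q h hA)
      (subring_closure_genSet N q) x
  exists_const f hf := by
    obtain ⟨c, hc, h1, h2⟩ := (stepDenseData q h hA).exists_const_mul_unit (genSet N q)
      (isApprox_stepGenSet q h hA) (subring_closure_genSet N q) hf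
    exact ⟨c, hc, h1, h2⟩

end Step

end Fermat.Agent.S36lib.Val
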