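/-
S36lib / Val / Pow  (helper9)

**The Gauss valuation at the cusp `∞` of level `M q^r`** (`q ∤ M`, `A` over `q`), by iterating the
step of `S36lib/Val/Step.lean` from the good level `M`:

* `isGaussLevel_mul_pow : IsGaussLevel (M * q ^ r) A`, `isGaussLevel_mul_mul : IsGaussLevel (M * q * q) A`;
* the residue field does not change: `fresDown : FRes A (N * q) ≃ₐ[kA] FRes A N` (ANY `N`),
  `fresDown₂ : FRes A (M * q * q) ≃ₐ[kA] FRes A M` (identity on `t`-expansions);
* `GaussDatum.congrRes` : change of the residue field of a Gauss datum along an isomorphism;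
* `gaussInf₂ M q A hqM hA : GaussDatum A (FBar (M * q * q)) (FRes A M)` — the valuation `v₂₀` of
  project S36 — with its characterisation on integral `t`-series (`gaussInf₂_mem_of_integral`,
  `coe_gaussInf₂_redF_of_integral`).
-/
import Mathlib
import Fermat.Agent.S36lib.Val.Step

set_option autoImplicit false
set_option linter.unusedSectionVars false
set_option linter.unusedVariables false
set_option linter.style.haveILetI false

noncomputable section

namespace Fermat.Agent.S36lib.Val

open ModularCurve Fermat.Agent.S18lib Fermat.Agent.S18lib.V Fermat.Agent.LSb.Val IntermediateField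

local notation "Qb" => AlgebraicClosure ℚ

/-! ### change of residue field -/

section CongrRes

variable {L : Type*} [Field L] {A : ValuationSubring L}
variable {F : Type*} [Field F] [Algebra L F]
variable {Fk Fk' : Type*} [Field Fk] [Field Fk'] [Algebra (IsLocalRing.ResidueField A) Fk]
  [Algebra (IsLocalRing.ResidueField A) Fk']

/-- change of the residue field of a Gauss datum along an isomorphism -/
def _root_.Fermat.Agent.S18lib.GaussDatum.congrRes (D : GaussDatum A F Fk)
    (e : Fk ≃ₐ[IsLocalRing.ResidueField A] Fk') : GaussDatum A F Fk' where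
  O := D.O
  algebraMap_mem_iff := D.algebraMap_mem_iff
  red := (e : Fk →+* Fk').comp D.red
  red_surjective := e.surjective.comp D.red_surjective
  red_algebraMap := by
    intro a h
    simp only [RingHom.comp_apply, D.red_algebraMap a h]
    exact e.commutes _
  exists_const_mul_isUnit := D.exists_const_mul_isUnit

@[simp] theorem congrRes_O (D : GaussDatum A F Fk)
    (e : Fk ≃ₐ[IsLocalRing.ResidueField A] Fk') : (D.congrRes e).O = D.O := rfl

theorem congrRes_red (D : GaussDatum A F Fk)
    (e : Fk ≃ₐ[IsLocalRing.ResidueField A] Fk') (x : D.O) :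
    (D.congrRes e).red x = e (D.red x) := rfl

theorem congrRes_redF (D : GaussDatum A F Fk)
    (e : Fk ≃ₐ[IsLocalRing.ResidueField A] Fk') (x : F) :
    (D.congrRes e).redF x = e (D.redF x) := by
  by_cases hx : x ∈ D.O
  · rw [GaussDatum.redF_of_mem _ (show x ∈ (D.congrRes e).O from hx), GaussDatum.redF_of_mem _ hx]
    rfl
  · rw [GaussDatum.redF_of_not_mem _ (show x ∉ (D.congrRes e).O from hx),
      GaussDatum.redF_of_not_mem _ hx, map_zero]

end CongrRes

/-! ### the residue field does not change -/

section Res

variable (N q : ℕ) [NeZero N] [NeZero q] [Fact q.Prime] (A : ValuationSubring Qb)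
  (hA : A.LiesOverPrime q)

local notation "kA" => IsLocalRing.ResidueField A

include hA in
theorem fullC_mul_eq_kA' :
    modularFunctionFieldFullC kA (N * q) = modularFunctionFieldFullC kA N := by
  haveI := Fermat.Agent.S18lib.Gink.charP_kRes (A := A) hA
  exact fullC_mul_eq kA N q

/-- the identification `FRes A (N q) = FRes A N` (any level `N`) -/
def fresDown : FRes A (N * q) ≃ₐ[kA] FRes A N :=
  AlgEquiv.ofBijective (IntermediateField.inclusion (le_of_eq (fullC_mul_eq_kA' N q A hA)))
    ⟨IntermediateField.inclusion_injective _, fun x =>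
      ⟨⟨x.1, (fullC_mul_eq_kA' N q A hA).symm ▸ x.2⟩, Subtype.ext rfl⟩⟩

theorem coe_fresDown (x : FRes A (N * q)) :
    ((fresDown N q A hA x : FRes A N) : LaurentSeries kA) = (x : LaurentSeries kA) := by
  rw [fresDown, AlgEquiv.ofBijective_apply]
  exact IntermediateField.coe_inclusion (le_of_eq (fullC_mul_eq_kA' N q A hA)) x

end Res

/-! ### levels `M q^r` -/

section Pow

variable (M q : ℕ) [NeZero M] [NeZero q] [Fact q.Prime] (A : ValuationSubring Qb)
  (hqM : ¬ q ∣ M) (hA : A.LiesOverPrime q)

local notation "kA" => IsLocalRing.ResidueField A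

include hqM hA in
/-- level `M q` -/
theorem isGaussLevel_mul : IsGaussLevel (M * q) A :=
  IsGaussLevel.mul_prime q (isGaussLevel_of_not_dvd M A hqM hA) hA

include hqM hA in
/-- level `M q q` (`q² ∥` level) -/
theorem isGaussLevel_mul_mul : IsGaussLevel (M * q * q) A :=
  IsGaussLevel.mul_prime q (isGaussLevel_mul M q A hqM hA) hA

/-- transport of `IsGaussLevel` along an equality of levels -/
theorem IsGaussLevel.of_eq {N N' : ℕ} [NeZero N] [NeZero N'] (e : N = N')
    (h : IsGaussLevel N A) : IsGaussLevel N' A := by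
  subst e
  exact h

include hqM hA in
/-- level `M q^r` -/
theorem isGaussLevel_mul_pow (r : ℕ) : IsGaussLevel (M * q ^ r) A := by
  induction r with
  | zero =>
    exact IsGaussLevel.of_eq A (by rw [pow_zero, mul_one]) (isGaussLevel_of_not_dvd M A hqM hA)
  | succ r ih =>
    exact IsGaussLevel.of_eq A (by rw [pow_succ, mul_assoc]) (IsGaussLevel.mul_prime q ih hA)

/-- `FRes A (M q q) = FRes A M` -/
def fresDown₂ : FRes A (M * q * q) ≃ₐ[kA] FRes A M :=
  (fresDown (M * q) q A hA).trans (fresDown M q A hA)

theorem coe_fresDown₂ (x : FRes A (M * q * q)) :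
    ((fresDown₂ M q A hA x : FRes A M) : LaurentSeries kA) = (x : LaurentSeries kA) := by
  rw [fresDown₂, AlgEquiv.trans_apply, coe_fresDown, coe_fresDown]

/-- **the Gauss datum `v₂₀` at the cusp `∞` of level `M q²`**, residue field `FRes A M` -/
def gaussInf₂ : GaussDatum A (FBar (M * q * q)) (FRes A M) :=
  (levelDatum (isGaussLevel_mul_mul M q A hqM hA)).congrRes (fresDown₂ M q A hA)

theorem mem_gaussInf₂_O {x : FBar (M * q * q)} :
    x ∈ (gaussInf₂ M q A hqM hA).O ↔ ∃ a b : IntRing (M * q * q) A, IsRep x a b := Iff.rfl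

theorem gaussInf₂_O_le {x : FBar (M * q * q)} (hx : x ∈ (gaussInf₂ M q A hqM hA).O) :
    x ∈ gaussSubring (M * q * q) A := hx

/-- integral `t`-series of level `M q²` lie in `O₂₀` -/
theorem gaussInf₂_mem_of_integral (y : LaurentSeries A)
    (hy : toL A y ∈ modularFunctionFieldBar (M * q * q)) :
    (⟨toL A y, hy⟩ : FBar (M * q * q)) ∈ (gaussInf₂ M q A hqM hA).O :=
  mem_levelDatum_of_integral (isGaussLevel_mul_mul M q A hqM hA) y hy

/-- ... and `red₂₀` is the coefficientwise reduction -/
theorem coe_gaussInf₂_redF_of_integral (y : LaurentSeries A)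
    (hy : toL A y ∈ modularFunctionFieldBar (M * q * q)) :
    (((gaussInf₂ M q A hqM hA).redF (⟨toL A y, hy⟩ : FBar (M * q * q)) : FRes A M) :
      LaurentSeries kA) = toK A y := by
  rw [gaussInf₂, congrRes_redF, coe_fresDown₂]
  exact coe_levelDatum_redF_of_integral (isGaussLevel_mul_mul M q A hqM hA) y hy

/-- the reduction of a quotient of integral functions -/
theorem coe_gaussInf₂_redF_apply {x : FBar (M * q * q)} {a b : IntRing (M * q * q) A}
    (hab : IsRep x a b) :
    (((gaussInf₂ M q A hqM hA).redF x : FRes A M) : LaurentSeries kA) =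
      ((elemK a / elemK b : FRes A (M * q * q)) : LaurentSeries kA) := by
  rw [gaussInf₂, congrRes_redF, coe_fresDown₂,
    levelDatum_redF_apply (isGaussLevel_mul_mul M q A hqM hA) hab]

end Pow

end Fermat.Agent.S36lib.Val
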