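/-
S36lib / Val / Along  (helper9)

**Gauss data at the cusp `∞`, level-generic, and their restriction along degeneracy maps.**

* `along_mem_of_mem`, `along_mem_iff`, `along_redF` : abstract form of LSb's "along" lemma — a ring
  map `φ : F → F'` between fields carrying Gauss data `D`, `D'`, compatible with the reductions on
  a set `S ⊆ D.O` of which every element of `D.O` is a quotient, is compatible everywhere
  (`φ f ∈ D'.O ↔ f ∈ D.O`, `D'.redF (φ f) = ψ (D.redF f)`).
* `IsGaussInf D` (`D : GaussDatum A (FBar N) (FRes A Mr)`, ANY level `N`, residue field identified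
  with `FRes A Mr`): `D.O` is S18's Gauss subring `gaussSubring N A` (= quotients of `A`-integral
  `t`-series with unit denominator) and `D.redF` is the coefficientwise reduction.  Instances:
  S18's `gaussDatum` (good level), `levelDatum`, LSb's `gaussOne` (level `M q`), `gaussInf₂`
  (level `M q q`).  `IsGaussInf` at level `M q` is equivalent to LSb's `Old.IsGaussOne`.
  Such a datum is unique (`IsGaussInf.O_eq`, `IsGaussInf.redF_eq`).
* `IsGaussInf.along` : the "along" lemma for two such data and a map which is given on integral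
  `t`-series by an operation on `LaurentSeries A`.
* **restriction table of `v_a = v₂₀` along `α, β : FBar (M q) → FBar (M q q)`**:
  `alpha_mem_iff_inf`, `redF_alpha_inf : red_a (α f) = red₁₀ f`,
  `beta_mem_iff_inf`, `redF_beta_inf : red_a (β f) = Vq (red₁₀ f)`.
-/
import Mathlib
import Fermat.Agent.S36lib.Val.Pow

set_option autoImplicit false
set_option linter.unusedSectionVars false
set_option linter.unusedVariables false
set_option linter.style.haveILetI false

noncomputable section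

namespace Fermat.Agent.S36lib.Val

open ModularCurve Fermat.Agent.S18lib Fermat.Agent.S18lib.V Fermat.Agent.LSb.Val
open Fermat.Agent.LSb

local notation "Qb" => AlgebraicClosure ℚ

/-! ### the abstract "along" lemma -/

section Abstract

variable {L : Type*} [Field L] {B : ValuationSubring L}
variable {F : Type*} [Field F] [Algebra L F]
variable {Fk : Type*} [Field Fk] [Algebra (IsLocalRing.ResidueField B) Fk]
variable {L' : Type*} [Field L'] {B' : ValuationSubring L'}
variable {F' : Type*} [Field F'] [Algebra L' F']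
variable {Fk' : Type*} [Field Fk'] [Algebra (IsLocalRing.ResidueField B') Fk']

/-- every element of `D.O` is a quotient `a / b` of elements of `S ∩ D.O` with `red b ≠ 0` -/
def IsQuotGen (D : GaussDatum B F Fk) (S : Set F) : Prop :=
  ∀ x ∈ D.O, ∃ a ∈ S, ∃ b ∈ S, a ∈ D.O ∧ D.redF b ≠ 0 ∧ x * b = a

variable {D : GaussDatum B F Fk} {D' : GaussDatum B' F' Fk'} {S : Set F}
variable (φ : F →+* F') (ψ : Fk →+* Fk')

/-- if `φ` maps `S ∩ D.O` into `D'.O` with reduction given by `ψ`, the same holds on `D.O` -/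
theorem along_mem_of_mem (hS : IsQuotGen D S)
    (hφ : ∀ a ∈ S, a ∈ D.O → φ a ∈ D'.O ∧ D'.redF (φ a) = ψ (D.redF a))
    {f : F} (hf : f ∈ D.O) : φ f ∈ D'.O ∧ D'.redF (φ f) = ψ (D.redF f) := by
  obtain ⟨a, haS, b, hbS, haO, hb, hab⟩ := hS f hf
  have hbO : b ∈ D.O := D.mem_of_redF_ne_zero hb
  obtain ⟨haO', hared⟩ := hφ a haS haO
  obtain ⟨hbO', hbred⟩ := hφ b hbS hbO
  have hb' : D'.redF (φ b) ≠ 0 := by
    rw [hbred]
    exact (map_ne_zero ψ).2 hb
  have hmul : φ f * φ b = φ a := by rw [← map_mul, hab]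
  have h1 := Old.redF_of_mul_eq D' haO' hb' hmul
  have h2 := Old.redF_of_mul_eq D haO hb hab
  rw [hared, hbred] at h1
  rw [h2.2, map_div₀]
  exact h1

theorem along_mem_iff (hS : IsQuotGen D S)
    (hφ : ∀ a ∈ S, a ∈ D.O → φ a ∈ D'.O ∧ D'.redF (φ a) = ψ (D.redF a))
    (f : F) : φ f ∈ D'.O ↔ f ∈ D.O := by
  refine ⟨fun h => ?_, fun h => (along_mem_of_mem φ ψ hS hφ h).1⟩
  by_contra hf
  obtain ⟨hfi, hred⟩ := Old.redF_inv_eq_zero_of_not_mem D hf
  obtain ⟨h2, h3⟩ := along_mem_of_mem φ ψ hS hφ hfi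
  rw [hred, map_zero, map_inv₀] at h3
  have hf0 : f ≠ 0 := by
    rintro rfl
    exact hf (zero_mem _)
  have hφf0 : φ f ≠ 0 := (map_ne_zero _).2 hf0
  rw [map_inv₀] at h2
  exact Old.redF_ne_zero_of_mem_of_inv_mem D' h2 (by rwa [inv_inv]) (inv_ne_zero hφf0) h3

theorem along_redF (hS : IsQuotGen D S)
    (hφ : ∀ a ∈ S, a ∈ D.O → φ a ∈ D'.O ∧ D'.redF (φ a) = ψ (D.redF a))
    (f : F) : D'.redF (φ f) = ψ (D.redF f) := by
  by_cases hf : f ∈ D.O
  · exact (along_mem_of_mem φ ψ hS hφ hf).2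
  · rw [GaussDatum.redF_of_not_mem _ hf, map_zero,
      GaussDatum.redF_of_not_mem _ (fun h => hf ((along_mem_iff φ ψ hS hφ f).1 h))]

end Abstract

/-! ### Gauss data at the cusp `∞` -/

section GaussInf

variable {N Mr : ℕ} [NeZero N] [NeZero Mr] {A : ValuationSubring Qb}

local notation "kA" => IsLocalRing.ResidueField A

/-- **`D` is the Gauss datum at the cusp `∞` of level `N`** (residue field identified with
`FRes A Mr` inside `LaurentSeries kA`): its ring is S18's Gauss subring and it reduces integral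
modular functions coefficientwise. -/
structure IsGaussInf (D : GaussDatum A (FBar N) (FRes A Mr)) : Prop where
  mem_iff : ∀ x : FBar N, x ∈ D.O ↔ x ∈ gaussSubring N A
  red : ∀ a : IntRing N A, ((D.redF (elemL a) : FRes A Mr) : LaurentSeries kA) = toK A a.1

variable {D : GaussDatum A (FBar N) (FRes A Mr)}

theorem IsGaussInf.mem_or_inv_mem (h : IsGaussInf D) (x : FBar N) :
    x ∈ gaussSubring N A ∨ x⁻¹ ∈ gaussSubring N A := by
  rcases D.O.mem_or_inv_mem x with hx | hx
  · exact Or.inl ((h.mem_iff _).1 hx)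
  · exact Or.inr ((h.mem_iff _).1 hx)

theorem IsGaussInf.isGaussLevel (h : IsGaussInf D) : IsGaussLevel N A where
  mem_or_inv_mem := h.mem_or_inv_mem
  exists_const := by
    intro f hf
    obtain ⟨c, hc, u, hu⟩ := D.exists_const_mul_isUnit f hf
    refine ⟨c, hc, (h.mem_iff _).1 (by rw [hu]; exact (u : D.O).2), (h.mem_iff _).1 ?_⟩
    rw [hu]
    have h1 : (((u⁻¹ : (D.O)ˣ) : D.O) : FBar N) = (((u : D.O) : FBar N))⁻¹ := by
      have h2 : ((u : D.O) : FBar N) * (((u⁻¹ : (D.O)ˣ) : D.O) : FBar N) = 1 :=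
        congrArg Subtype.val (u.mul_inv)
      exact eq_inv_of_mul_eq_one_right h2
    rw [← h1]
    exact ((u⁻¹ : (D.O)ˣ) : D.O).2

theorem IsGaussInf.elemL_mem (h : IsGaussInf D) (a : IntRing N A) : elemL a ∈ D.O :=
  (h.mem_iff _).2 (elemL_mem_gaussSubring a)

/-- integral `t`-series of level `N` lie in `O` -/
theorem IsGaussInf.mem_of_integral (h : IsGaussInf D) (y : LaurentSeries A)
    (hy : toL A y ∈ modularFunctionFieldBar N) : (⟨toL A y, hy⟩ : FBar N) ∈ D.O :=
  (h.mem_iff _).2 (mem_gaussSubring_of_integral h.mem_or_inv_mem y hy)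

/-- ... and the reduction is coefficientwise -/
theorem IsGaussInf.coe_redF_of_integral (h : IsGaussInf D) (y : LaurentSeries A)
    (hy : toL A y ∈ modularFunctionFieldBar N) :
    ((D.redF (⟨toL A y, hy⟩ : FBar N) : FRes A Mr) : LaurentSeries kA) = toK A y :=
  h.red (intOfSeries h.mem_or_inv_mem y hy)

theorem IsGaussInf.redF_elemL_ne_zero (h : IsGaussInf D) {b : IntRing N A}
    (hb : elemK b ≠ 0) : D.redF (elemL b) ≠ 0 := by
  intro h0
  apply hb
  apply Subtype.ext
  have h1 := h.red b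
  rw [h0, ZeroMemClass.coe_zero] at h1
  rw [coe_elemK, ← h1, ZeroMemClass.coe_zero]

/-- the reduction of a quotient of integral functions -/
theorem IsGaussInf.coe_redF_apply (h : IsGaussInf D) {x : FBar N} {a b : IntRing N A}
    (hab : IsRep x a b) :
    ((D.redF x : FRes A Mr) : LaurentSeries kA) = toK A a.1 / toK A b.1 := by
  have h1 := Old.redF_of_mul_eq D (h.elemL_mem a) (h.redF_elemL_ne_zero hab.1) hab.2
  rw [h1.2, ← h.red a, ← h.red b]
  rfl

/-- every element of `O` is a quotient of integral modular functions with unit denominator -/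
theorem IsGaussInf.isQuotGen (h : IsGaussInf D) :
    IsQuotGen D (Set.range (elemL : IntRing N A → FBar N)) := by
  intro x hx
  obtain ⟨a, b, hab⟩ := (h.mem_iff x).1 hx
  exact ⟨elemL a, ⟨a, rfl⟩, elemL b, ⟨b, rfl⟩, h.elemL_mem a, h.redF_elemL_ne_zero hab.1, hab.2⟩

/-- **constructor**: if the Gauss subring of level `N` is a valuation ring, a Gauss datum which
contains the integral modular functions and reduces them coefficientwise is the Gauss datum at
`∞`. -/
theorem IsGaussInf.of_elemL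
    (hval : ∀ x : FBar N, x ∈ gaussSubring N A ∨ x⁻¹ ∈ gaussSubring N A)
    (hmem : ∀ a : IntRing N A, elemL a ∈ D.O)
    (hred : ∀ a : IntRing N A,
      ((D.redF (elemL a) : FRes A Mr) : LaurentSeries kA) = toK A a.1) : IsGaussInf D := by
  have hne : ∀ {b : IntRing N A}, elemK b ≠ 0 → D.redF (elemL b) ≠ 0 := by
    intro b hb h0
    apply hb
    apply Subtype.ext
    have h1 := hred b
    rw [h0, ZeroMemClass.coe_zero] at h1
    rw [coe_elemK, ← h1, ZeroMemClass.coe_zero]
  have hle : ∀ x : FBar N, x ∈ gaussSubring N A → x ∈ D.O := by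
    rintro x ⟨a, b, hab⟩
    exact (Old.redF_of_mul_eq D (hmem a) (hne hab.1) hab.2).1
  refine ⟨fun x => ⟨fun hx => ?_, hle x⟩, hred⟩
  by_contra hx'
  have hxi : x⁻¹ ∈ gaussSubring N A := (hval x).resolve_left hx'
  have hx0 : x ≠ 0 := by
    rintro rfl
    exact hx' (zero_mem _)
  obtain ⟨a, b, hab⟩ := hxi
  -- `ā = 0`, otherwise `x = b / a` lies in the Gauss subring
  have ha : elemK a = 0 := by
    by_contra ha
    have := hab.inv ha
    rw [inv_inv] at this
    exact hx' ⟨b, a, this⟩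
  have h1 := Old.redF_of_mul_eq D (hmem a) (hne hab.1) hab.2
  have h2 : D.redF (elemL a) = 0 := by
    apply Subtype.ext
    rw [hred a, ← coe_elemK, ha, ZeroMemClass.coe_zero, ZeroMemClass.coe_zero]
  rw [h2, zero_div] at h1
  exact Old.redF_ne_zero_of_mem_of_inv_mem D h1.1 (by rwa [inv_inv]) (inv_ne_zero hx0) h1.2

/-- uniqueness: the ring -/
theorem IsGaussInf.O_eq {D D' : GaussDatum A (FBar N) (FRes A Mr)} (h : IsGaussInf D)
    (h' : IsGaussInf D') : D.O = D'.O := by
  ext x
  rw [h.mem_iff, h'.mem_iff]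

/-- uniqueness: the reduction -/
theorem IsGaussInf.redF_eq {D D' : GaussDatum A (FBar N) (FRes A Mr)} (h : IsGaussInf D)
    (h' : IsGaussInf D') (x : FBar N) : D.redF x = D'.redF x := by
  by_cases hx : x ∈ D.O
  · obtain ⟨a, b, hab⟩ := (h.mem_iff x).1 hx
    apply Subtype.ext
    rw [h.coe_redF_apply hab, h'.coe_redF_apply hab]
  · rw [GaussDatum.redF_of_not_mem _ hx,
      GaussDatum.redF_of_not_mem _ (fun hx' => hx (by rw [h.O_eq h']; exact hx'))]

end GaussInf

/-! ### instances -/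

section InstLevel

variable {N : ℕ} [NeZero N] {A : ValuationSubring Qb}

/-- the level datum of `S36lib/Val/Level` -/
theorem isGaussInf_levelDatum (h : IsGaussLevel N A) : IsGaussInf (levelDatum h) where
  mem_iff _ := Iff.rfl
  red a := by rw [levelDatum_redF_elemL, coe_elemK]

end InstLevel

section Instances

variable (M q : ℕ) [NeZero M] [NeZero q] [Fact q.Prime] (A : ValuationSubring Qb)
  (hqM : ¬ q ∣ M) (hA : A.LiesOverPrime q)

local notation "kA" => IsLocalRing.ResidueField A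

/-- S18's Gauss datum at a good level -/
theorem isGaussInf_gaussDatum : IsGaussInf (gaussDatum M A hqM hA) where
  mem_iff _ := Iff.rfl
  red a := by
    have hrep : IsRep (elemL a) a 1 :=
      ⟨by rw [elemK_one]; exact one_ne_zero, by rw [elemL_one, mul_one]⟩
    rw [gaussDatum_redF_apply M A hqM hA hrep, elemK_one, div_one, coe_elemK]

/-- LSb's first Gauss datum of level `M q` -/
theorem isGaussInf_gaussOne : IsGaussInf (gaussOne M q A hqM hA) where
  mem_iff _ := Iff.rfl
  red a := (isGaussOne_gaussOne M q A hqM hA).red a.1 a.2.1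

/-- the Gauss datum `v₂₀` of level `M q q` -/
theorem isGaussInf_gaussInf₂ : IsGaussInf (gaussInf₂ M q A hqM hA) where
  mem_iff _ := Iff.rfl
  red a := coe_gaussInf₂_redF_of_integral M q A hqM hA a.1 a.2.1

variable {M q A}

/-- `IsGaussInf` at level `M q` implies LSb's `IsGaussOne` -/
theorem IsGaussInf.isGaussOne {D1 : GaussDatum A (FBar (M * q)) (FRes A M)}
    (h : IsGaussInf D1) : Old.IsGaussOne D1 where
  mem y hy := h.mem_of_integral y hy
  red y hy := h.coe_redF_of_integral y hy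

include hqM hA in
/-- LSb's `IsGaussOne` is `IsGaussInf` at level `M q` -/
theorem isGaussInf_of_isGaussOne {D1 : GaussDatum A (FBar (M * q)) (FRes A M)}
    (h1 : Old.IsGaussOne D1) : IsGaussInf D1 :=
  IsGaussInf.of_elemL (gaussSubring_mul_mem_or_inv_mem M q A hqM hA)
    (fun a => h1.mem a.1 a.2.1) (fun a => h1.red a.1 a.2.1)

end Instances

/-! ### the "along" lemma for Gauss data at `∞` -/

section AlongInf

variable {N N' M₁ M₂ : ℕ} [NeZero N] [NeZero N'] [NeZero M₁] [NeZero M₂]
  {A : ValuationSubring Qb}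

local notation "kA" => IsLocalRing.ResidueField A

variable {D : GaussDatum A (FBar N) (FRes A M₁)} {D' : GaussDatum A (FBar N') (FRes A M₂)}
variable (φ : FBar N →+* FBar N') (ψ : FRes A M₁ →+* FRes A M₂)

theorem IsGaussInf.along_aux (h : IsGaussInf D) (h' : IsGaussInf D')
    (hφ : ∀ a : IntRing N A, ∃ y : LaurentSeries A,
      ((φ (elemL a) : FBar N') : LaurentSeries Qb) = toL A y ∧
      ((ψ (D.redF (elemL a)) : FRes A M₂) : LaurentSeries kA) = toK A y) :
    ∀ a ∈ Set.range (elemL : IntRing N A → FBar N), a ∈ D.O →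
      φ a ∈ D'.O ∧ D'.redF (φ a) = ψ (D.redF a) := by
  rintro _ ⟨a, rfl⟩ -
  obtain ⟨y, h1, h2⟩ := hφ a
  have hy : toL A y ∈ modularFunctionFieldBar N' := by
    rw [← h1]
    exact (φ (elemL a)).2
  have he : φ (elemL a) = (⟨toL A y, hy⟩ : FBar N') := Subtype.ext h1
  rw [he]
  refine ⟨h'.mem_of_integral y hy, Subtype.ext ?_⟩
  rw [h'.coe_redF_of_integral y hy, h2]

/-- a ring map `φ : FBar N → FBar N'` which on integral modular functions is given by an operation
on integral `t`-series, whose reduction is `ψ`, is compatible with the Gauss data at `∞` -/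
theorem IsGaussInf.along_mem_iff (h : IsGaussInf D) (h' : IsGaussInf D')
    (hφ : ∀ a : IntRing N A, ∃ y : LaurentSeries A,
      ((φ (elemL a) : FBar N') : LaurentSeries Qb) = toL A y ∧
      ((ψ (D.redF (elemL a)) : FRes A M₂) : LaurentSeries kA) = toK A y)
    (f : FBar N) : φ f ∈ D'.O ↔ f ∈ D.O :=
  Val.along_mem_iff φ ψ h.isQuotGen (h.along_aux φ ψ h' hφ) f

theorem IsGaussInf.along_redF (h : IsGaussInf D) (h' : IsGaussInf D')
    (hφ : ∀ a : IntRing N A, ∃ y : LaurentSeries A,
      ((φ (elemL a) : FBar N') : LaurentSeries Qb) = toL A y ∧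
      ((ψ (D.redF (elemL a)) : FRes A M₂) : LaurentSeries kA) = toK A y)
    (f : FBar N) : D'.redF (φ f) = ψ (D.redF f) :=
  Val.along_redF φ ψ h.isQuotGen (h.along_aux φ ψ h' hφ) f

end AlongInf

/-! ### the degeneracy maps `α, β : FBar N → FBar (N q)` and Gauss data at `∞` -/

section Degeneracy

variable {N q Mr : ℕ} [NeZero N] [NeZero q] [hq : Fact q.Prime] [NeZero Mr]
  {A : ValuationSubring Qb}

local notation "kA" => IsLocalRing.ResidueField A

variable {D : GaussDatum A (FBar N) (FRes A Mr)} {D' : GaussDatum A (FBar (N * q)) (FRes A Mr)}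

/-- **along `α`** (`t ↦ t`): membership -/
theorem IsGaussInf.alpha_mem_iff (h : IsGaussInf D) (h' : IsGaussInf D') (f : FBar N) :
    heckeAlphaBar Qb N q f ∈ D'.O ↔ f ∈ D.O :=
  h.along_mem_iff (heckeAlphaBar Qb N q : FBar N →+* FBar (N * q)) (RingHom.id _) h'
    (fun a => ⟨a.1, by
      show ((heckeAlphaBar Qb N q (elemL a) : FBar (N * q)) : LaurentSeries Qb) = _
      rw [coe_heckeAlphaBar, coe_elemL], h.red a⟩) f

/-- **along `α`**: `red' (α f) = red f` -/
theorem IsGaussInf.redF_alpha (h : IsGaussInf D) (h' : IsGaussInf D') (f : FBar N) :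
    D'.redF (heckeAlphaBar Qb N q f) = D.redF f :=
  h.along_redF (heckeAlphaBar Qb N q : FBar N →+* FBar (N * q)) (RingHom.id _) h'
    (fun a => ⟨a.1, by
      show ((heckeAlphaBar Qb N q (elemL a) : FBar (N * q)) : LaurentSeries Qb) = _
      rw [coe_heckeAlphaBar, coe_elemL], h.red a⟩) f

theorem IsGaussInf.beta_aux (hA : A.LiesOverPrime q) (h : IsGaussInf D) (a : IntRing N A) :
    ∃ y : LaurentSeries A,
      (((heckeBetaBar Qb N q : FBar N →+* FBar (N * q)) (elemL a) : FBar (N * q)) :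
        LaurentSeries Qb) = toL A y ∧
      ((((Old.Vq Mr q A hA : FRes A Mr →ₐ[kA] FRes A Mr) : FRes A Mr →+* FRes A Mr)
        (D.redF (elemL a)) : FRes A Mr) : LaurentSeries kA) = toK A y := by
  refine ⟨qExpand A q a.1, ?_, ?_⟩
  · show ((heckeBetaBar Qb N q (elemL a) : FBar (N * q)) : LaurentSeries Qb) = _
    rw [coe_heckeBetaBar, coe_elemL, toL, coeffMap_qExpand]
  · show ((Old.Vq Mr q A hA (D.redF (elemL a)) : FRes A Mr) : LaurentSeries kA) = _
    rw [Old.coe_Vq, h.red a, toK, coeffMap_qExpand]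

/-- **along `β`** (`t ↦ t ^ q`): membership -/
theorem IsGaussInf.beta_mem_iff (hA : A.LiesOverPrime q) (h : IsGaussInf D)
    (h' : IsGaussInf D') (f : FBar N) :
    heckeBetaBar Qb N q f ∈ D'.O ↔ f ∈ D.O :=
  h.along_mem_iff (heckeBetaBar Qb N q : FBar N →+* FBar (N * q))
    ((Old.Vq Mr q A hA : FRes A Mr →ₐ[kA] FRes A Mr) : FRes A Mr →+* FRes A Mr) h'
    (IsGaussInf.beta_aux hA h) f

/-- **along `β`**: `red' (β f) = Vq (red f)` -/
theorem IsGaussInf.redF_beta (hA : A.LiesOverPrime q) (h : IsGaussInf D)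
    (h' : IsGaussInf D') (f : FBar N) :
    D'.redF (heckeBetaBar Qb N q f) = Old.Vq Mr q A hA (D.redF f) :=
  h.along_redF (heckeBetaBar Qb N q : FBar N →+* FBar (N * q))
    ((Old.Vq Mr q A hA : FRes A Mr →ₐ[kA] FRes A Mr) : FRes A Mr →+* FRes A Mr) h'
    (IsGaussInf.beta_aux hA h) f

end Degeneracy

/-! ### the table for `v_a = v₂₀` -/

section TableA

variable (M q : ℕ) [NeZero M] [NeZero q] [hq : Fact q.Prime] (A : ValuationSubring Qb)
  (hqM : ¬ q ∣ M) (hA : A.LiesOverPrime q)

local notation "kA" => IsLocalRing.ResidueField A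

/-- `α f ∈ O_a ↔ f ∈ O₁₀` -/
theorem alpha_mem_iff_inf (f : FBar (M * q)) :
    heckeAlphaBar Qb (M * q) q f ∈ (gaussInf₂ M q A hqM hA).O ↔
      f ∈ (gaussOne M q A hqM hA).O :=
  (isGaussInf_gaussOne M q A hqM hA).alpha_mem_iff (isGaussInf_gaussInf₂ M q A hqM hA) f

/-- `red_a (α f) = red₁₀ f` -/
theorem redF_alpha_inf (f : FBar (M * q)) :
    (gaussInf₂ M q A hqM hA).redF (heckeAlphaBar Qb (M * q) q f) =
      (gaussOne M q A hqM hA).redF f :=
  (isGaussInf_gaussOne M q A hqM hA).redF_alpha (isGaussInf_gaussInf₂ M q A hqM hA) f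

/-- `β f ∈ O_a ↔ f ∈ O₁₀` -/
theorem beta_mem_iff_inf (f : FBar (M * q)) :
    heckeBetaBar Qb (M * q) q f ∈ (gaussInf₂ M q A hqM hA).O ↔
      f ∈ (gaussOne M q A hqM hA).O :=
  IsGaussInf.beta_mem_iff hA (isGaussInf_gaussOne M q A hqM hA)
    (isGaussInf_gaussInf₂ M q A hqM hA) f

/-- `red_a (β f) = Vq (red₁₀ f)` -/
theorem redF_beta_inf (f : FBar (M * q)) :
    (gaussInf₂ M q A hqM hA).redF (heckeBetaBar Qb (M * q) q f) =
      Old.Vq M q A hA ((gaussOne M q A hqM hA).redF f) :=
  IsGaussInf.redF_beta hA (isGaussInf_gaussOne M q A hqM hA)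
    (isGaussInf_gaussInf₂ M q A hqM hA) f

end TableA

end Fermat.Agent.S36lib.Val
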