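/-
S36lib / Val / Zero  (helper9)

**The Gauss valuation `v_c = v₀₂` at the cusp `0` of level `M q q`** and the reduction tables of
`v_a = v₂₀`, `v_c = v₀₂` along the degeneracy maps.

* `gaussZero₂ M q A hqM hA : GaussDatum A (FBar (M * q * q)) (FRes A M)` := the transport of
  `gaussInf₂` by helper1's Atkin–Lehner involution `w_{q²} = AL.wqq`;
  `IsGaussZero₂ Da Dc` : `Dc = Da ∘ w_{q²}` (membership and reduction).
* tables along `α, β : FBar (M q) → FBar (M q q)` (`D1 = v₁₀`, `D2 = v₀₁` the two Gauss data of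
  level `M q`, `Old.IsGaussTwo D1 D2 w_q`):

      red_a (α f) = red₁₀ f        red_a (β f) = Vq (red₁₀ f)        (`S36lib/Val/Along`)
      red_c (α f) = Vq (red₀₁ f)   red_c (β f) = red₀₁ f             (here)

  with the corresponding membership statements.
* the three maps `tau₀ = α ∘ α`, `tau₁ = β ∘ α = α ∘ β`, `tau₂ = β ∘ β : FBar M → FBar (M q q)`
  (`f(t)`, `f(t^q)`, `f(t^(q²))`) and the reduction table (`D0` the Gauss datum of level `M`):

      red_a : (red₀ f,        Vq (red₀ f),   Vq (Vq (red₀ f)))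
      red_c : (Vq (Vq (red₀ f)),  Vq (red₀ f),   red₀ f)
-/
import Mathlib
import Fermat.Agent.S36lib.Val.Along
import Fermat.Agent.S36lib.AL.WQDeg
import Fermat.Agent.LSb.Old.Lift

set_option autoImplicit false
set_option linter.unusedSectionVars false
set_option linter.unusedVariables false
set_option linter.style.haveILetI false

noncomputable section

namespace Fermat.Agent.S36lib.Val

open ModularCurve Fermat.Agent.S18lib Fermat.Agent.S18lib.V Fermat.Agent.LSb.Val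
open Fermat.Agent.LSb Fermat.Agent.S36lib.AL

local notation "Qb" => AlgebraicClosure ℚ

variable (M q : ℕ) [NeZero M] [NeZero q] [hq : Fact q.Prime] (A : ValuationSubring Qb)
  (hqM : ¬ q ∣ M) (hA : A.LiesOverPrime q)

local notation "kA" => IsLocalRing.ResidueField A

/-! ### the datum `v₀₂` -/

section Datum

/-- **the Gauss datum `v₀₂` at the cusp `0` of level `M q²`**: the transport of `v₂₀` by
`w_{q²}` -/
def gaussZero₂ : GaussDatum A (FBar (M * q * q)) (FRes A M) :=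
  Unit.transport (gaussInf₂ M q A hqM hA) (wqq M q hq.out hqM)

/-- `Dc = Da ∘ w_{q²}` -/
structure IsGaussZero₂ (Da Dc : GaussDatum A (FBar (M * q * q)) (FRes A M)) : Prop where
  mem_iff : ∀ x : FBar (M * q * q), x ∈ Dc.O ↔ wqq M q hq.out hqM x ∈ Da.O
  redF : ∀ x : FBar (M * q * q), Dc.redF x = Da.redF (wqq M q hq.out hqM x)

theorem isGaussZero₂_gaussZero₂ :
    IsGaussZero₂ M q A hqM (gaussInf₂ M q A hqM hA) (gaussZero₂ M q A hqM hA) where
  mem_iff x := Unit.mem_transport _ _ x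
  redF x := Unit.transport_redF _ _ x

variable {M q A hqM}

/-- the mirror statements: `Da = Dc ∘ w_{q²}` -/
theorem IsGaussZero₂.mem_iff' {Da Dc : GaussDatum A (FBar (M * q * q)) (FRes A M)}
    (h : IsGaussZero₂ M q A hqM Da Dc) (x : FBar (M * q * q)) :
    x ∈ Da.O ↔ wqq M q hq.out hqM x ∈ Dc.O := by
  rw [h.mem_iff, wqq_wqq]

theorem IsGaussZero₂.redF' {Da Dc : GaussDatum A (FBar (M * q * q)) (FRes A M)}
    (h : IsGaussZero₂ M q A hqM Da Dc) (x : FBar (M * q * q)) :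
    Da.redF x = Dc.redF (wqq M q hq.out hqM x) := by
  rw [h.redF, wqq_wqq]

end Datum

/-! ### the table of `v_c` along `α`, `β` -/

section TableC

variable {M q A hqM}
variable {D1 D2 : GaussDatum A (FBar (M * q)) (FRes A M)}
variable {Da Dc : GaussDatum A (FBar (M * q * q)) (FRes A M)}

include hA in
/-- `α f ∈ O_c ↔ f ∈ O₀₁` -/
theorem alpha_mem_iff_zero (h1 : IsGaussInf D1)
    (h2 : Old.IsGaussTwo D1 D2 (wq M q hq.out hqM : FBar (M * q) →+* FBar (M * q)))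
    (ha : IsGaussInf Da) (hc : IsGaussZero₂ M q A hqM Da Dc) (f : FBar (M * q)) :
    heckeAlphaBar Qb (M * q) q f ∈ Dc.O ↔ f ∈ D2.O := by
  rw [hc.mem_iff, wqq_alpha, IsGaussInf.beta_mem_iff hA h1 ha, h2.mem_iff]
  rfl

/-- `red_c (α f) = Vq (red₀₁ f)` -/
theorem redF_alpha_zero (h1 : IsGaussInf D1)
    (h2 : Old.IsGaussTwo D1 D2 (wq M q hq.out hqM : FBar (M * q) →+* FBar (M * q)))
    (ha : IsGaussInf Da) (hc : IsGaussZero₂ M q A hqM Da Dc) (f : FBar (M * q)) :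
    Dc.redF (heckeAlphaBar Qb (M * q) q f) = Old.Vq M q A hA (D2.redF f) := by
  rw [hc.redF, wqq_alpha, IsGaussInf.redF_beta hA h1 ha, h2.redF]
  rfl

/-- `β f ∈ O_c ↔ f ∈ O₀₁` -/
theorem beta_mem_iff_zero (h1 : IsGaussInf D1)
    (h2 : Old.IsGaussTwo D1 D2 (wq M q hq.out hqM : FBar (M * q) →+* FBar (M * q)))
    (ha : IsGaussInf Da) (hc : IsGaussZero₂ M q A hqM Da Dc) (f : FBar (M * q)) :
    heckeBetaBar Qb (M * q) q f ∈ Dc.O ↔ f ∈ D2.O := by
  rw [hc.mem_iff, wqq_beta, h1.alpha_mem_iff ha, h2.mem_iff]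
  rfl

/-- `red_c (β f) = red₀₁ f` -/
theorem redF_beta_zero (h1 : IsGaussInf D1)
    (h2 : Old.IsGaussTwo D1 D2 (wq M q hq.out hqM : FBar (M * q) →+* FBar (M * q)))
    (ha : IsGaussInf Da) (hc : IsGaussZero₂ M q A hqM Da Dc) (f : FBar (M * q)) :
    Dc.redF (heckeBetaBar Qb (M * q) q f) = D2.redF f := by
  rw [hc.redF, wqq_beta, h1.redF_alpha ha, h2.redF]
  rfl

end TableC

/-! ### the three maps `FBar M → FBar (M q q)` -/

section Tau

/-- `f(t) ↦ f(t)` : `FBar M → FBar (M q q)` -/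
def tau₀ : FBar M →ₐ[Qb] FBar (M * q * q) :=
  (heckeAlphaBar Qb (M * q) q).comp (heckeAlphaBar Qb M q)

/-- `f(t) ↦ f(t^q)` : `FBar M → FBar (M q q)` -/
def tau₁ : FBar M →ₐ[Qb] FBar (M * q * q) :=
  (heckeAlphaBar Qb (M * q) q).comp (heckeBetaBar Qb M q)

/-- `f(t) ↦ f(t^(q²))` : `FBar M → FBar (M q q)` -/
def tau₂ : FBar M →ₐ[Qb] FBar (M * q * q) :=
  (heckeBetaBar Qb (M * q) q).comp (heckeBetaBar Qb M q)

theorem tau₀_apply (f : FBar M) :
    tau₀ M q f = heckeAlphaBar Qb (M * q) q (heckeAlphaBar Qb M q f) := rfl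

theorem tau₁_apply (f : FBar M) :
    tau₁ M q f = heckeAlphaBar Qb (M * q) q (heckeBetaBar Qb M q f) := rfl

theorem tau₂_apply (f : FBar M) :
    tau₂ M q f = heckeBetaBar Qb (M * q) q (heckeBetaBar Qb M q f) := rfl

theorem coe_tau₀ (f : FBar M) :
    ((tau₀ M q f : FBar (M * q * q)) : LaurentSeries Qb) = (f : LaurentSeries Qb) := by
  rw [tau₀_apply, coe_heckeAlphaBar, coe_heckeAlphaBar]

theorem coe_tau₁ (f : FBar M) :
    ((tau₁ M q f : FBar (M * q * q)) : LaurentSeries Qb) =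
      qExpand Qb q (f : LaurentSeries Qb) := by
  rw [tau₁_apply, coe_heckeAlphaBar, coe_heckeBetaBar]

theorem coe_tau₂ (f : FBar M) :
    ((tau₂ M q f : FBar (M * q * q)) : LaurentSeries Qb) =
      qExpand Qb q (qExpand Qb q (f : LaurentSeries Qb)) := by
  rw [tau₂_apply, coe_heckeBetaBar, coe_heckeBetaBar]

/-- `β ∘ α = α ∘ β` -/
theorem beta_alpha_eq (f : FBar M) :
    heckeBetaBar Qb (M * q) q (heckeAlphaBar Qb M q f) = tau₁ M q f := by
  apply Subtype.ext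
  rw [coe_tau₁, coe_heckeBetaBar, coe_heckeAlphaBar]

/-- `w_{q²}` exchanges `tau₀` and `tau₂` and fixes `tau₁` -/
theorem wqq_tau₀ (f : FBar M) : wqq M q hq.out hqM (tau₀ M q f) = tau₂ M q f := by
  rw [tau₀_apply, wqq_alpha, wq_alpha, tau₂_apply]

theorem wqq_tau₂ (f : FBar M) : wqq M q hq.out hqM (tau₂ M q f) = tau₀ M q f := by
  rw [← wqq_tau₀ M q hqM, wqq_wqq]

theorem wqq_tau₁ (f : FBar M) : wqq M q hq.out hqM (tau₁ M q f) = tau₁ M q f := by
  rw [tau₁_apply, wqq_alpha, wq_beta, beta_alpha_eq]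
  rfl

end Tau

/-! ### the reduction table at level `M` -/

section TableM

variable {M q A}
variable {D1 D2 : GaussDatum A (FBar (M * q)) (FRes A M)}
variable {Da Dc : GaussDatum A (FBar (M * q * q)) (FRes A M)}

local notation "D0" => gaussDatum M A hqM hA

/-- the level-`M` Gauss datum is the Gauss datum at `∞` -/
theorem isGaussInf_D0 : IsGaussInf (gaussDatum M A hqM hA) := isGaussInf_gaussDatum M q A hqM hA

/-! #### `v_a` -/

include hqM hA in
theorem tau₀_mem_iff_inf (h1 : IsGaussInf D1) (ha : IsGaussInf Da) (f : FBar M) :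
    tau₀ M q f ∈ Da.O ↔ f ∈ (gaussDatum M A hqM hA).O := by
  rw [tau₀_apply, h1.alpha_mem_iff ha, (isGaussInf_D0 hqM hA).alpha_mem_iff h1]

theorem redF_tau₀_inf (h1 : IsGaussInf D1) (ha : IsGaussInf Da) (f : FBar M) :
    Da.redF (tau₀ M q f) = (gaussDatum M A hqM hA).redF f := by
  rw [tau₀_apply, h1.redF_alpha ha, (isGaussInf_D0 hqM hA).redF_alpha h1]

theorem tau₁_mem_iff_inf (h1 : IsGaussInf D1) (ha : IsGaussInf Da) (f : FBar M) :
    tau₁ M q f ∈ Da.O ↔ f ∈ (gaussDatum M A hqM hA).O := by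
  rw [tau₁_apply, h1.alpha_mem_iff ha, IsGaussInf.beta_mem_iff hA (isGaussInf_D0 hqM hA) h1]

theorem redF_tau₁_inf (h1 : IsGaussInf D1) (ha : IsGaussInf Da) (f : FBar M) :
    Da.redF (tau₁ M q f) = Old.Vq M q A hA ((gaussDatum M A hqM hA).redF f) := by
  rw [tau₁_apply, h1.redF_alpha ha, IsGaussInf.redF_beta hA (isGaussInf_D0 hqM hA) h1]

theorem tau₂_mem_iff_inf (h1 : IsGaussInf D1) (ha : IsGaussInf Da) (f : FBar M) :
    tau₂ M q f ∈ Da.O ↔ f ∈ (gaussDatum M A hqM hA).O := by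
  rw [tau₂_apply, IsGaussInf.beta_mem_iff hA h1 ha,
    IsGaussInf.beta_mem_iff hA (isGaussInf_D0 hqM hA) h1]

theorem redF_tau₂_inf (h1 : IsGaussInf D1) (ha : IsGaussInf Da) (f : FBar M) :
    Da.redF (tau₂ M q f) =
      Old.Vq M q A hA (Old.Vq M q A hA ((gaussDatum M A hqM hA).redF f)) := by
  rw [tau₂_apply, IsGaussInf.redF_beta hA h1 ha,
    IsGaussInf.redF_beta hA (isGaussInf_D0 hqM hA) h1]

/-! #### `v_c` -/

theorem tau₀_mem_iff_zero (h1 : IsGaussInf D1) (ha : IsGaussInf Da)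
    (hc : IsGaussZero₂ M q A hqM Da Dc) (f : FBar M) :
    tau₀ M q f ∈ Dc.O ↔ f ∈ (gaussDatum M A hqM hA).O := by
  rw [hc.mem_iff, wqq_tau₀, tau₂_mem_iff_inf hqM hA h1 ha]

theorem redF_tau₀_zero (h1 : IsGaussInf D1) (ha : IsGaussInf Da)
    (hc : IsGaussZero₂ M q A hqM Da Dc) (f : FBar M) :
    Dc.redF (tau₀ M q f) =
      Old.Vq M q A hA (Old.Vq M q A hA ((gaussDatum M A hqM hA).redF f)) := by
  rw [hc.redF, wqq_tau₀, redF_tau₂_inf hqM hA h1 ha]

theorem tau₁_mem_iff_zero (h1 : IsGaussInf D1) (ha : IsGaussInf Da)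
    (hc : IsGaussZero₂ M q A hqM Da Dc) (f : FBar M) :
    tau₁ M q f ∈ Dc.O ↔ f ∈ (gaussDatum M A hqM hA).O := by
  rw [hc.mem_iff, wqq_tau₁, tau₁_mem_iff_inf hqM hA h1 ha]

theorem redF_tau₁_zero (h1 : IsGaussInf D1) (ha : IsGaussInf Da)
    (hc : IsGaussZero₂ M q A hqM Da Dc) (f : FBar M) :
    Dc.redF (tau₁ M q f) = Old.Vq M q A hA ((gaussDatum M A hqM hA).redF f) := by
  rw [hc.redF, wqq_tau₁, redF_tau₁_inf hqM hA h1 ha]

theorem tau₂_mem_iff_zero (h1 : IsGaussInf D1) (ha : IsGaussInf Da)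
    (hc : IsGaussZero₂ M q A hqM Da Dc) (f : FBar M) :
    tau₂ M q f ∈ Dc.O ↔ f ∈ (gaussDatum M A hqM hA).O := by
  rw [hc.mem_iff, wqq_tau₂, tau₀_mem_iff_inf hqM hA h1 ha]

theorem redF_tau₂_zero (h1 : IsGaussInf D1) (ha : IsGaussInf Da)
    (hc : IsGaussZero₂ M q A hqM Da Dc) (f : FBar M) :
    Dc.redF (tau₂ M q f) = (gaussDatum M A hqM hA).redF f := by
  rw [hc.redF, wqq_tau₂, redF_tau₀_inf hqM hA h1 ha]

end TableM

end Fermat.Agent.S36lib.Val
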