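/-
S36lib / Val / Jd  (helper9)

**The generators `j(t^d)` under the Gauss data at `∞` / `0` of level `M q q`.**

* `IsGaussInf.jd_mem`, `IsGaussInf.coe_redF_jd` : for a Gauss datum at `∞` of ANY level `N` and
  `d ∣ N`, `j(t^d) ∈ O` and `red (j(t^d)) = j̄(t^d)` (as a Laurent series over `kA`).
* level `M q q`, `x = xTop = j(t)`, `y = yTop = j(t^(q²))` (helper2's `Eis/Degree` names), `Da = v₂₀`,
  `Dc = v₀₂ = Da ∘ w_{q²}`:

      red_a x = j̄,        red_a y = (j̄ ^ q) ^ q,        red_a (j(t^q)) = j̄ ^ q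
      red_c x = (j̄ ^ q) ^ q,   red_c y = j̄

  so `y - x` is a unit of `O_a` and of `O_c` (`redF_inf_yTop_sub_xTop_ne_zero`,
  `redF_zero_yTop_sub_xTop_ne_zero`).
-/
import Mathlib
import Fermat.Agent.S36lib.Val.Zero
import Fermat.Agent.S36lib.Eis.Degree
import Fermat.Agent.LSb.Val.KronNewton

set_option autoImplicit false
set_option linter.unusedSectionVars false
set_option linter.unusedVariables false
set_option linter.style.haveILetI false

noncomputable section

namespace Fermat.Agent.S36lib.Val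

open ModularCurve Fermat.Agent.S18lib Fermat.Agent.S18lib.V Fermat.Agent.LSb.Val
open Fermat.Agent.LSb Fermat.Agent.S36lib.AL Fermat.Agent.S36lib.Eis
open Fermat.Agent.ProgramR Fermat.Agent.ProgramR.BarField

local notation "Qb" => AlgebraicClosure ℚ

/-! ### any level -/

section Any

variable {N Mr : ℕ} [NeZero N] [NeZero Mr] {A : ValuationSubring Qb}

local notation "kA" => IsLocalRing.ResidueField A

variable {D : GaussDatum A (FBar N) (FRes A Mr)}

/-- `j(t^d) ∈ O` -/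
theorem IsGaussInf.jd_mem (h : IsGaussInf D) (d : ℕ) [NeZero d] (hd : d ∣ N) :
    jd N d hd ∈ D.O := by
  rw [← elemL_jI A N d hd]
  exact h.elemL_mem _

/-- `red (j(t^d)) = j̄(t^d)` -/
theorem IsGaussInf.coe_redF_jd (h : IsGaussInf D) (d : ℕ) [NeZero d] (hd : d ∣ N) :
    ((D.redF (jd N d hd) : FRes A Mr) : LaurentSeries kA) = qExpand kA d (jqModC kA) := by
  rw [← elemL_jI A N d hd, h.red, ← coe_elemK, coe_elemK_jI]

end Any

/-! ### level `M q q` -/

section Top

variable {M q : ℕ} [NeZero M] [NeZero q] [hq : Fact q.Prime] {A : ValuationSubring Qb}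
  {hqM : ¬ q ∣ M} (hA : A.LiesOverPrime q)

local notation "kA" => IsLocalRing.ResidueField A

variable {Da Dc : GaussDatum A (FBar (M * q * q)) (FRes A M)}

theorem xTop_mem_inf (ha : IsGaussInf Da) : xTop M q ∈ Da.O := ha.jd_mem 1 (one_dvd _)

theorem yTop_mem_inf (ha : IsGaussInf Da) : yTop M q ∈ Da.O :=
  ha.jd_mem (q * q) (Dvd.intro_left M (Nat.mul_assoc M q q).symm)

/-- `red_a (j(t)) = j̄` -/
theorem redF_inf_xTop (ha : IsGaussInf Da) : Da.redF (xTop M q) = jRes M A := by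
  apply Subtype.ext
  rw [xTop, ha.coe_redF_jd, qExpand_one_apply, coe_jRes]

include hA in
/-- `red_a (j(t^(q²))) = (j̄ ^ q) ^ q` -/
theorem redF_inf_yTop (ha : IsGaussInf Da) : Da.redF (yTop M q) = (jRes M A ^ q) ^ q := by
  haveI := Old.charP_kRes (q := q) hA
  apply Subtype.ext
  rw [yTop, ha.coe_redF_jd, SubmonoidClass.coe_pow, SubmonoidClass.coe_pow, coe_jRes,
    S37lib.ConjNorm.pow_char_eq_qExpand q, S37lib.ConjNorm.pow_char_eq_qExpand q,
    coeffMap_qExpand, coeffMap_jqModC, coeffMap_jqModC, qExpand_qExpand]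

include hA in
/-- `red_a (j(t^q)) = j̄ ^ q` -/
theorem redF_inf_jd_q (ha : IsGaussInf Da) (hd : q ∣ M * q * q) :
    Da.redF (jd (M * q * q) q hd) = jRes M A ^ q := by
  haveI := Old.charP_kRes (q := q) hA
  apply Subtype.ext
  rw [ha.coe_redF_jd, SubmonoidClass.coe_pow, coe_jRes,
    S37lib.ConjNorm.pow_char_eq_qExpand q, coeffMap_jqModC]

/-- `(j̄ ^ q) ^ q ≠ j̄` -/
theorem jRes_pow_pow_sub_ne_zero : (jRes M A ^ q) ^ q - jRes M A ≠ 0 := by
  have h := elemK_jI_pow_ne (A := A) (q := q) M 1 (one_dvd M)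
  have e : elemK (jI A M 1 (one_dvd M)) = jRes M A := by
    apply Subtype.ext
    rw [coe_elemK_jI, qExpand_one_apply, coe_jRes]
  rwa [e] at h

include hA in
/-- `y - x` is a unit of `O_a` -/
theorem redF_inf_yTop_sub_xTop (ha : IsGaussInf Da) :
    Da.redF (yTop M q - xTop M q) = (jRes M A ^ q) ^ q - jRes M A := by
  rw [Da.redF_sub (yTop_mem_inf ha) (xTop_mem_inf ha), redF_inf_yTop hA ha, redF_inf_xTop ha]

include hA in
theorem redF_inf_yTop_sub_xTop_ne_zero (ha : IsGaussInf Da) :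
    Da.redF (yTop M q - xTop M q) ≠ 0 := by
  rw [redF_inf_yTop_sub_xTop hA ha]
  exact jRes_pow_pow_sub_ne_zero

/-! #### `v_c` -/

theorem xTop_mem_zero (ha : IsGaussInf Da) (hc : IsGaussZero₂ M q A hqM Da Dc) :
    xTop M q ∈ Dc.O := by
  rw [hc.mem_iff, wqq_xTop]
  exact yTop_mem_inf ha

theorem yTop_mem_zero (ha : IsGaussInf Da) (hc : IsGaussZero₂ M q A hqM Da Dc) :
    yTop M q ∈ Dc.O := by
  rw [hc.mem_iff, wqq_yTop]
  exact xTop_mem_inf ha

include hA in
/-- `red_c (j(t)) = (j̄ ^ q) ^ q` -/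
theorem redF_zero_xTop (ha : IsGaussInf Da) (hc : IsGaussZero₂ M q A hqM Da Dc) :
    Dc.redF (xTop M q) = (jRes M A ^ q) ^ q := by
  rw [hc.redF, wqq_xTop, redF_inf_yTop hA ha]

/-- `red_c (j(t^(q²))) = j̄` -/
theorem redF_zero_yTop (ha : IsGaussInf Da) (hc : IsGaussZero₂ M q A hqM Da Dc) :
    Dc.redF (yTop M q) = jRes M A := by
  rw [hc.redF, wqq_yTop, redF_inf_xTop ha]

include hA in
/-- `y - x` is a unit of `O_c` -/
theorem redF_zero_yTop_sub_xTop (ha : IsGaussInf Da) (hc : IsGaussZero₂ M q A hqM Da Dc) :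
    Dc.redF (yTop M q - xTop M q) = jRes M A - (jRes M A ^ q) ^ q := by
  rw [Dc.redF_sub (yTop_mem_zero ha hc) (xTop_mem_zero ha hc), redF_zero_yTop ha hc,
    redF_zero_xTop hA ha hc]

include hA in
theorem redF_zero_yTop_sub_xTop_ne_zero (ha : IsGaussInf Da)
    (hc : IsGaussZero₂ M q A hqM Da Dc) : Dc.redF (yTop M q - xTop M q) ≠ 0 := by
  rw [redF_zero_yTop_sub_xTop hA ha hc]
  intro h
  apply jRes_pow_pow_sub_ne_zero (M := M) (q := q) (A := A)
  rw [← neg_sub, h, neg_zero]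

end Top

end Fermat.Agent.S36lib.Val
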