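/-
S36lib / Val / Sep  (helper9)

**The valuation rings `O_a` (of `v₂₀`) and `O_c` (of `v₀₂`) of level `M q q` are incomparable.**

* `not_le_of_redF` : generic — an element of `D'.O` with nonzero `D'`-reduction lying in the
  maximal ideal of `D.O` shows `¬ D'.O ≤ D.O`.
* `jRes_pow_sub_ne_zero : 2 ≤ n → j̄ ^ n - j̄ ≠ 0`.
* `sepElt M q = x - y ^ (q * q)` (`x = j(t)`, `y = j(t^(q²))`): `red_c = 0`, `red_a = j̄ - j̄^(q⁴) ≠ 0`;
  its `w_{q²}`-mirror `sepElt' M q = y - x ^ (q * q)`: `red_a = 0`, `red_c ≠ 0`.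
* `not_le_inf_zero : ¬ Da.O ≤ Dc.O`, `not_le_zero_inf : ¬ Dc.O ≤ Da.O`, `O_inf_ne_O_zero`.
-/
import Mathlib
import Fermat.Agent.S36lib.Val.Jd

set_option autoImplicit false
set_option linter.unusedSectionVars false
set_option linter.unusedVariables false
set_option linter.style.haveILetI false

noncomputable section

namespace Fermat.Agent.S36lib.Val

open ModularCurve Polynomial Fermat.Agent.S18lib Fermat.Agent.S18lib.V Fermat.Agent.LSb.Val
open Fermat.Agent.LSb Fermat.Agent.S36lib.AL Fermat.Agent.S36lib.Eis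

local notation "Qb" => AlgebraicClosure ℚ

/-! ### generic separation -/

section Generic

variable {L : Type*} [Field L] {B : ValuationSubring L}
variable {F : Type*} [Field F] [Algebra L F]
variable {Fk : Type*} [Field Fk] [Algebra (IsLocalRing.ResidueField B) Fk]
variable {L' : Type*} [Field L'] {B' : ValuationSubring L'} [Algebra L' F]
variable {Fk' : Type*} [Field Fk'] [Algebra (IsLocalRing.ResidueField B') Fk']

/-- an element of the maximal ideal of `D.O` which is a unit of `D'.O` separates the two rings -/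
theorem not_le_of_redF (D : GaussDatum B F Fk) (D' : GaussDatum B' F Fk') {g : F}
    (hg : g ∈ D.O) (hred : D.redF g = 0) (hred' : D'.redF g ≠ 0) : ¬ D'.O ≤ D.O := by
  intro hle
  have hg0 : g ≠ 0 := by
    rintro rfl
    exact hred' D'.redF_zero
  have hinv' : g⁻¹ ∈ D'.O := D'.inv_mem_of_redF_ne_zero hred'
  have hinv : g⁻¹ ∈ D.O := hle hinv'
  exact Old.redF_ne_zero_of_mem_of_inv_mem D hg hinv hg0 hred

end Generic

/-! ### `j̄ ^ n ≠ j̄` -/

section JRes

variable {M : ℕ} [NeZero M] {A : ValuationSubring Qb}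

local notation "kA" => IsLocalRing.ResidueField A

theorem jRes_pow_sub_ne_zero {n : ℕ} (hn : 2 ≤ n) : jRes M A ^ n - jRes M A ≠ 0 := by
  intro h
  have h1 := congrArg (Subtype.val : FRes A M → LaurentSeries kA) h
  have h2 : (jqModC kA) ^ n - jqModC kA = 0 := by
    rw [← coe_jRes M A]
    exact h1
  have h4 : Polynomial.aeval (jqModC kA) (X ^ n - X : kA[X]) = 0 := by
    rw [map_sub, map_pow, aeval_X]
    exact h2
  have h5 := Fermat.Agent.S28lib.aeval_jqModC_injective (R := kA) (h4.trans (map_zero _).symm)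
  have h6 := congrArg (fun p : kA[X] => p.coeff 1) h5
  simp only [coeff_sub, coeff_X_pow, coeff_X_one, coeff_zero] at h6
  rw [if_neg (by omega)] at h6
  simp at h6

end JRes

/-! ### the separating elements -/

section Sep

variable (M q : ℕ) [NeZero M] [NeZero q] [hq : Fact q.Prime]

/-- `x - y ^ (q²)`, `x = j(t)`, `y = j(t^(q²))` -/
def sepElt : FBar (M * q * q) := xTop M q - yTop M q ^ (q * q)

/-- `y - x ^ (q²)` -/
def sepElt' : FBar (M * q * q) := yTop M q - xTop M q ^ (q * q)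

variable {M q}
variable {A : ValuationSubring Qb} {hqM : ¬ q ∣ M} (hA : A.LiesOverPrime q)
variable {Da Dc : GaussDatum A (FBar (M * q * q)) (FRes A M)}

theorem sepElt_mem_inf (ha : IsGaussInf Da) : sepElt M q ∈ Da.O :=
  Da.O.sub_mem (xTop_mem_inf ha) (Da.O.pow_mem (yTop_mem_inf ha) _)

theorem sepElt'_mem_inf (ha : IsGaussInf Da) : sepElt' M q ∈ Da.O :=
  Da.O.sub_mem (yTop_mem_inf ha) (Da.O.pow_mem (xTop_mem_inf ha) _)

theorem sepElt_mem_zero (ha : IsGaussInf Da) (hc : IsGaussZero₂ M q A hqM Da Dc) :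
    sepElt M q ∈ Dc.O :=
  Dc.O.sub_mem (xTop_mem_zero ha hc) (Dc.O.pow_mem (yTop_mem_zero ha hc) _)

theorem sepElt'_mem_zero (ha : IsGaussInf Da) (hc : IsGaussZero₂ M q A hqM Da Dc) :
    sepElt' M q ∈ Dc.O :=
  Dc.O.sub_mem (yTop_mem_zero ha hc) (Dc.O.pow_mem (xTop_mem_zero ha hc) _)

include hA in
/-- `red_a (y - x^(q²)) = 0` -/
theorem redF_inf_sepElt' (ha : IsGaussInf Da) : Da.redF (sepElt' M q) = 0 := by
  rw [sepElt', Da.redF_sub (yTop_mem_inf ha) (Da.O.pow_mem (xTop_mem_inf ha) _),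
    Da.redF_pow (xTop_mem_inf ha), redF_inf_yTop hA ha, redF_inf_xTop ha, ← pow_mul, sub_self]

include hA in
/-- `red_a (x - y^(q²)) = j̄ - j̄^(q⁴)` -/
theorem redF_inf_sepElt (ha : IsGaussInf Da) :
    Da.redF (sepElt M q) = jRes M A - jRes M A ^ (q * q * (q * q)) := by
  rw [sepElt, Da.redF_sub (xTop_mem_inf ha) (Da.O.pow_mem (yTop_mem_inf ha) _),
    Da.redF_pow (yTop_mem_inf ha), redF_inf_yTop hA ha, redF_inf_xTop ha, ← pow_mul, ← pow_mul,
    Nat.mul_assoc q q (q * q)]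

include hA in
theorem redF_inf_sepElt_ne_zero (ha : IsGaussInf Da) : Da.redF (sepElt M q) ≠ 0 := by
  rw [redF_inf_sepElt hA ha]
  intro h
  have h2 : 2 ≤ q * q * (q * q) := by
    have h3 := hq.out.two_le
    have h4 : 4 ≤ q * q := Nat.mul_le_mul h3 h3
    have h5 : 4 * 4 ≤ q * q * (q * q) := Nat.mul_le_mul h4 h4
    omega
  apply jRes_pow_sub_ne_zero (M := M) (A := A) h2
  rw [← neg_sub, h, neg_zero]

include hA in
/-- `red_c (x - y^(q²)) = 0` -/
theorem redF_zero_sepElt (ha : IsGaussInf Da) (hc : IsGaussZero₂ M q A hqM Da Dc) :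
    Dc.redF (sepElt M q) = 0 := by
  rw [sepElt, Dc.redF_sub (xTop_mem_zero ha hc) (Dc.O.pow_mem (yTop_mem_zero ha hc) _),
    Dc.redF_pow (yTop_mem_zero ha hc), redF_zero_yTop ha hc, redF_zero_xTop hA ha hc,
    ← pow_mul, sub_self]

include hA in
/-- `red_c (y - x^(q²)) = j̄ - j̄^(q⁴)` -/
theorem redF_zero_sepElt' (ha : IsGaussInf Da) (hc : IsGaussZero₂ M q A hqM Da Dc) :
    Dc.redF (sepElt' M q) = jRes M A - jRes M A ^ (q * q * (q * q)) := by
  rw [sepElt', Dc.redF_sub (yTop_mem_zero ha hc) (Dc.O.pow_mem (xTop_mem_zero ha hc) _),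
    Dc.redF_pow (xTop_mem_zero ha hc), redF_zero_yTop ha hc, redF_zero_xTop hA ha hc,
    ← pow_mul, ← pow_mul, Nat.mul_assoc q q (q * q)]

include hA in
theorem redF_zero_sepElt'_ne_zero (ha : IsGaussInf Da) (hc : IsGaussZero₂ M q A hqM Da Dc) :
    Dc.redF (sepElt' M q) ≠ 0 := by
  rw [redF_zero_sepElt' hA ha hc]
  intro h
  have h2 : 2 ≤ q * q * (q * q) := by
    have h3 := hq.out.two_le
    have h4 : 4 ≤ q * q := Nat.mul_le_mul h3 h3
    have h5 : 4 * 4 ≤ q * q * (q * q) := Nat.mul_le_mul h4 h4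
    omega
  apply jRes_pow_sub_ne_zero (M := M) (A := A) h2
  rw [← neg_sub, h, neg_zero]

include hA in
/-- `O_a ⊄ O_c` -/
theorem not_le_inf_zero (ha : IsGaussInf Da) (hc : IsGaussZero₂ M q A hqM Da Dc) :
    ¬ Da.O ≤ Dc.O :=
  not_le_of_redF Dc Da (sepElt_mem_zero ha hc) (redF_zero_sepElt hA ha hc)
    (redF_inf_sepElt_ne_zero hA ha)

include hA in
/-- `O_c ⊄ O_a` -/
theorem not_le_zero_inf (ha : IsGaussInf Da) (hc : IsGaussZero₂ M q A hqM Da Dc) :
    ¬ Dc.O ≤ Da.O :=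
  not_le_of_redF Da Dc (sepElt'_mem_inf ha) (redF_inf_sepElt' hA ha)
    (redF_zero_sepElt'_ne_zero hA ha hc)

include hA in
theorem O_inf_ne_O_zero (ha : IsGaussInf Da) (hc : IsGaussZero₂ M q A hqM Da Dc) :
    Da.O ≠ Dc.O := fun h => not_le_inf_zero hA ha hc (le_of_eq h)

end Sep

end Fermat.Agent.S36lib.Val
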