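/-
S36lib / Val / Fix  (helper9)

**The `K`-rational Gauss data `v_a`, `v_c` of level `M q q`** over the inertia-fixed base
`(Kfix A, Wfix A)` (helper2) on the inertia-fixed function field `fixF (M q q) I` (helper1),
`I = A.inertiaSubgroupIn ℚ`, and the `K`-rational restriction rows.

* `restrictHyp_gaussInf₂`, `restrictHyp_gaussZero₂` : helper1's `RestrictHyp` for `gaussInf₂`
  (coefficientwise reduction) and `gaussZero₂` (transport by `w_{q²}`);
* `gaussInfK₂`, `gaussZeroK₂ : GaussDatum (Wfix A) (fixF (M q q) I) (FRes A M)` (`FRes A M` a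
  `k_{Wfix A}`-algebra through helper1's scoped instance `Desc2.resAlgebraOn`), with
  `mem_gaussInfK₂`, `gaussInfK₂_redF`, `mem_gaussZeroK₂`, `gaussZeroK₂_redF`;
* `fixMap_mem_iff`, `fixMap_redF` : GENERIC restriction of a row — a Galois-equivariant
  `ψ : FBar N → FBar N'` with `ψ f ∈ D'.O ↔ f ∈ D.O`, `D'.redF (ψ f) = ι (D.redF f)` has the same
  properties for ANY restricted data on the fixed fields and helper7's `fixMap H ψ hψ`;
* the four rows of `v_a`, `v_c` along `alphaFix`, `betaFix` (helper7) for arbitrary restricted data: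
  `alphaFix_mem_iff_inf`, `redF_alphaFix_inf`, `betaFix_mem_iff_inf`, `redF_betaFix_inf`,
  `alphaFix_mem_iff_zero`, `redF_alphaFix_zero`, `betaFix_mem_iff_zero`, `redF_betaFix_zero`;
* `xTopFix`, `yTopFix` (helper7): their reductions, `yTopFix - xTopFix` is a unit of `O_a`, `O_c`;
* incomparability of the `K`-rational `O_a`, `O_c` (`restrict_O_inf_ne_O_zero`).
-/
import Mathlib
import Fermat.Agent.S36lib.Val.Sep
import Fermat.Agent.S36lib.Desc2.Inst
import Fermat.Agent.S36lib.Norm.DescendInst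

set_option autoImplicit false
set_option linter.unusedSectionVars false
set_option linter.unusedVariables false
set_option linter.style.haveILetI false

noncomputable section

namespace Fermat.Agent.S36lib.Val

open ModularCurve Fermat.Agent.S18lib Fermat.Agent.S18lib.V Fermat.Agent.LSb.Val
open Fermat.Agent.LSb Fermat.Agent.S36lib.AL Fermat.Agent.S36lib.Eis
open Fermat.Agent.S36lib.Desc Fermat.Agent.S36lib.Desc2 Fermat.Agent.S36lib.Norm
open Fermat.Agent.S29lib.GH IsLocalRing

local notation "Qb" => AlgebraicClosure ℚ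
local notation "GQ" => (AlgebraicClosure ℚ ≃ₐ[ℚ] AlgebraicClosure ℚ)

/-! ### generic restriction of a row -/

section Generic

variable {A : ValuationSubring Qb} {H : Subgroup GQ} {R : ValuationSubring (fixK H)}
variable {N N' : ℕ} [NeZero N] [NeZero N']
variable {Fk Fk' : Type*} [Field Fk] [Field Fk'] [Algebra (ResidueField A) Fk]
  [Algebra (ResidueField A) Fk'] [Algebra (ResidueField R) Fk] [Algebra (ResidueField R) Fk']
variable {D : GaussDatum A (FBar N) Fk} {D' : GaussDatum A (FBar N') Fk'}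

/-- membership row, restricted to the fixed fields -/
theorem fixMap_mem_iff (r : RestrictHyp D R (fixF N H)) (r' : RestrictHyp D' R (fixF N' H))
    (ψ : FBar N →+* FBar N')
    (hψ : ∀ σ ∈ H, ∀ x : FBar N, galAutBar N' σ • ψ x = ψ (galAutBar N σ • x))
    (hrow : ∀ f : FBar N, ψ f ∈ D'.O ↔ f ∈ D.O) (x : fixF N H) :
    fixMap H ψ hψ x ∈ (restrictDatum r').O ↔ x ∈ (restrictDatum r).O :=
  hrow (x : FBar N)

/-- reduction row, restricted to the fixed fields -/
theorem fixMap_redF (r : RestrictHyp D R (fixF N H)) (r' : RestrictHyp D' R (fixF N' H))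
    (ψ : FBar N →+* FBar N')
    (hψ : ∀ σ ∈ H, ∀ x : FBar N, galAutBar N' σ • ψ x = ψ (galAutBar N σ • x))
    (ι : Fk → Fk') (hrow : ∀ f : FBar N, D'.redF (ψ f) = ι (D.redF f)) (x : fixF N H) :
    (restrictDatum r').redF (fixMap H ψ hψ x) = ι ((restrictDatum r).redF x) := by
  rw [restrictDatum_redF, restrictDatum_redF]
  exact hrow (x : FBar N)

end Generic

/-! ### the data -/

section Data

open scoped Fermat.Agent.S36lib.Desc2

variable (M q : ℕ) [NeZero M] [NeZero q] [hq : Fact q.Prime] (A : ValuationSubring Qb)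
  (hqM : ¬ q ∣ M) (hA : A.LiesOverPrime q)

/-- the restriction hypotheses for `v_a = v₂₀` -/
theorem restrictHyp_gaussInf₂ :
    RestrictHyp (gaussInf₂ M q A hqM hA) (Wfix A) (fixF (M * q * q) (A.inertiaSubgroupIn ℚ)) :=
  restrictHyp_of_coe (resCompat_resAlgebraOn A (FRes A M)) (gaussInf₂ M q A hqM hA)
    (isGaussInf_gaussInf₂ M q A hqM hA).mem_of_integral
    (isGaussInf_gaussInf₂ M q A hqM hA).coe_redF_of_integral hq.out hA
    ⟨q * q, (Nat.mul_assoc M q q)⟩

/-- the restriction hypotheses for `v_c = v₀₂` -/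
theorem restrictHyp_gaussZero₂ :
    RestrictHyp (gaussZero₂ M q A hqM hA) (Wfix A)
      (fixF (M * q * q) (A.inertiaSubgroupIn ℚ)) :=
  restrictHyp_transport (restrictHyp_gaussInf₂ M q A hqM hA) (wqq M q hq.out hqM)
    (wqq_arithmeticRingAut M q hq.out hqM)

/-- **the `K`-rational `v_a = v₂₀`** -/
def gaussInfK₂ :
    GaussDatum (Wfix A) (fixF (M * q * q) (A.inertiaSubgroupIn ℚ)) (FRes A M) :=
  restrictDatum (restrictHyp_gaussInf₂ M q A hqM hA)

/-- **the `K`-rational `v_c = v₀₂`** -/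
def gaussZeroK₂ :
    GaussDatum (Wfix A) (fixF (M * q * q) (A.inertiaSubgroupIn ℚ)) (FRes A M) :=
  restrictDatum (restrictHyp_gaussZero₂ M q A hqM hA)

theorem mem_gaussInfK₂ {f : fixF (M * q * q) (A.inertiaSubgroupIn ℚ)} :
    f ∈ (gaussInfK₂ M q A hqM hA).O ↔ (f : FBar (M * q * q)) ∈ (gaussInf₂ M q A hqM hA).O :=
  Iff.rfl

theorem gaussInfK₂_redF (f : fixF (M * q * q) (A.inertiaSubgroupIn ℚ)) :
    (gaussInfK₂ M q A hqM hA).redF f = (gaussInf₂ M q A hqM hA).redF (f : FBar (M * q * q)) :=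
  restrictDatum_redF _ f

theorem mem_gaussZeroK₂ {f : fixF (M * q * q) (A.inertiaSubgroupIn ℚ)} :
    f ∈ (gaussZeroK₂ M q A hqM hA).O ↔
      (f : FBar (M * q * q)) ∈ (gaussZero₂ M q A hqM hA).O :=
  Iff.rfl

theorem gaussZeroK₂_redF (f : fixF (M * q * q) (A.inertiaSubgroupIn ℚ)) :
    (gaussZeroK₂ M q A hqM hA).redF f =
      (gaussZero₂ M q A hqM hA).redF (f : FBar (M * q * q)) :=
  restrictDatum_redF _ f

end Data

/-! ### the rows of `v_a`, `v_c` for arbitrary restricted data -/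

section Rows

variable {M q : ℕ} [NeZero M] [NeZero q] [hq : Fact q.Prime] {A : ValuationSubring Qb}
  {hqM : ¬ q ∣ M} (hA : A.LiesOverPrime q)
variable {H : Subgroup GQ} {R : ValuationSubring (fixK H)}
  [Algebra (ResidueField R) (FRes A M)]
variable {D1 D2 : GaussDatum A (FBar (M * q)) (FRes A M)}
variable {Da Dc : GaussDatum A (FBar (M * q * q)) (FRes A M)}
variable (r₁ : RestrictHyp D1 R (fixF (M * q) H)) (r₂ : RestrictHyp D2 R (fixF (M * q) H))
variable (rₐ : RestrictHyp Da R (fixF (M * q * q) H))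
  (r_c : RestrictHyp Dc R (fixF (M * q * q) H))

/-- `v_a` along `α` -/
theorem alphaFix_mem_iff_inf (h1 : IsGaussInf D1) (ha : IsGaussInf Da) (x : fixF (M * q) H) :
    alphaFix M q H x ∈ (restrictDatum rₐ).O ↔ x ∈ (restrictDatum r₁).O :=
  h1.alpha_mem_iff ha (x : FBar (M * q))

theorem redF_alphaFix_inf (h1 : IsGaussInf D1) (ha : IsGaussInf Da) (x : fixF (M * q) H) :
    (restrictDatum rₐ).redF (alphaFix M q H x) = (restrictDatum r₁).redF x := by
  rw [restrictDatum_redF, restrictDatum_redF]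
  exact h1.redF_alpha ha (x : FBar (M * q))

include hA in
/-- `v_a` along `β` -/
theorem betaFix_mem_iff_inf (h1 : IsGaussInf D1) (ha : IsGaussInf Da) (x : fixF (M * q) H) :
    betaFix M q H x ∈ (restrictDatum rₐ).O ↔ x ∈ (restrictDatum r₁).O :=
  IsGaussInf.beta_mem_iff hA h1 ha (x : FBar (M * q))

theorem redF_betaFix_inf (h1 : IsGaussInf D1) (ha : IsGaussInf Da) (x : fixF (M * q) H) :
    (restrictDatum rₐ).redF (betaFix M q H x) =
      Old.Vq M q A hA ((restrictDatum r₁).redF x) := by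
  rw [restrictDatum_redF, restrictDatum_redF]
  exact IsGaussInf.redF_beta hA h1 ha (x : FBar (M * q))

include hA in
/-- `v_c` along `α` -/
theorem alphaFix_mem_iff_zero (h1 : IsGaussInf D1)
    (h2 : Old.IsGaussTwo D1 D2 (wq M q hq.out hqM : FBar (M * q) →+* FBar (M * q)))
    (ha : IsGaussInf Da) (hc : IsGaussZero₂ M q A hqM Da Dc) (x : fixF (M * q) H) :
    alphaFix M q H x ∈ (restrictDatum r_c).O ↔ x ∈ (restrictDatum r₂).O :=
  alpha_mem_iff_zero hA h1 h2 ha hc (x : FBar (M * q))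

theorem redF_alphaFix_zero (h1 : IsGaussInf D1)
    (h2 : Old.IsGaussTwo D1 D2 (wq M q hq.out hqM : FBar (M * q) →+* FBar (M * q)))
    (ha : IsGaussInf Da) (hc : IsGaussZero₂ M q A hqM Da Dc) (x : fixF (M * q) H) :
    (restrictDatum r_c).redF (alphaFix M q H x) =
      Old.Vq M q A hA ((restrictDatum r₂).redF x) := by
  rw [restrictDatum_redF, restrictDatum_redF]
  exact redF_alpha_zero hA h1 h2 ha hc (x : FBar (M * q))

/-- `v_c` along `β` -/
theorem betaFix_mem_iff_zero (h1 : IsGaussInf D1)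
    (h2 : Old.IsGaussTwo D1 D2 (wq M q hq.out hqM : FBar (M * q) →+* FBar (M * q)))
    (ha : IsGaussInf Da) (hc : IsGaussZero₂ M q A hqM Da Dc) (x : fixF (M * q) H) :
    betaFix M q H x ∈ (restrictDatum r_c).O ↔ x ∈ (restrictDatum r₂).O :=
  beta_mem_iff_zero h1 h2 ha hc (x : FBar (M * q))

theorem redF_betaFix_zero (h1 : IsGaussInf D1)
    (h2 : Old.IsGaussTwo D1 D2 (wq M q hq.out hqM : FBar (M * q) →+* FBar (M * q)))
    (ha : IsGaussInf Da) (hc : IsGaussZero₂ M q A hqM Da Dc) (x : fixF (M * q) H) :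
    (restrictDatum r_c).redF (betaFix M q H x) = (restrictDatum r₂).redF x := by
  rw [restrictDatum_redF, restrictDatum_redF]
  exact redF_beta_zero h1 h2 ha hc (x : FBar (M * q))

/-! #### `x = j(t)`, `y = j(t^(q²))` -/

theorem coe_xTopFix : ((xTopFix M q H : fixF (M * q * q) H) : FBar (M * q * q)) = xTop M q := rfl

theorem coe_yTopFix : ((yTopFix M q H : fixF (M * q * q) H) : FBar (M * q * q)) = yTop M q := rfl

theorem coe_yTopFix_sub_xTopFix :
    ((yTopFix M q H - xTopFix M q H : fixF (M * q * q) H) : FBar (M * q * q)) =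
      yTop M q - xTop M q := rfl

include hA in
/-- `y - x` is a unit of the `K`-rational `O_a` -/
theorem restrict_redF_inf_sub_ne_zero (ha : IsGaussInf Da) :
    (restrictDatum rₐ).redF (yTopFix M q H - xTopFix M q H) ≠ 0 := by
  rw [restrictDatum_redF]
  exact redF_inf_yTop_sub_xTop_ne_zero hA ha

include hA in
/-- `y - x` is a unit of the `K`-rational `O_c` -/
theorem restrict_redF_zero_sub_ne_zero (ha : IsGaussInf Da)
    (hc : IsGaussZero₂ M q A hqM Da Dc) :
    (restrictDatum r_c).redF (yTopFix M q H - xTopFix M q H) ≠ 0 := by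
  rw [restrictDatum_redF]
  exact redF_zero_yTop_sub_xTop_ne_zero hA ha hc

/-- the separating element `x - y^(q²)` in the fixed field -/
def sepEltFix (M q : ℕ) [NeZero M] [NeZero q] (H : Subgroup GQ) : fixF (M * q * q) H :=
  xTopFix M q H - yTopFix M q H ^ (q * q)

theorem coe_sepEltFix :
    ((sepEltFix M q H : fixF (M * q * q) H) : FBar (M * q * q)) = sepElt M q := rfl

include hA in
/-- **the `K`-rational rings `O_a`, `O_c` are different** -/
theorem restrict_not_le_inf_zero (ha : IsGaussInf Da) (hc : IsGaussZero₂ M q A hqM Da Dc) :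
    ¬ (restrictDatum rₐ).O ≤ (restrictDatum r_c).O := by
  refine not_le_of_redF (restrictDatum r_c) (restrictDatum rₐ) (g := sepEltFix M q H) ?_ ?_ ?_
  · exact sepElt_mem_zero ha hc
  · rw [restrictDatum_redF]
    exact redF_zero_sepElt hA ha hc
  · rw [restrictDatum_redF]
    exact redF_inf_sepElt_ne_zero hA ha

include hA in
theorem restrict_O_inf_ne_O_zero (ha : IsGaussInf Da) (hc : IsGaussZero₂ M q A hqM Da Dc) :
    (restrictDatum rₐ).O ≠ (restrictDatum r_c).O :=
  fun h => restrict_not_le_inf_zero hA rₐ r_c ha hc (le_of_eq h)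

end Rows

/-! ### the concrete statements -/

section Concrete

open scoped Fermat.Agent.S36lib.Desc2

variable (M q : ℕ) [NeZero M] [NeZero q] [hq : Fact q.Prime] (A : ValuationSubring Qb)
  (hqM : ¬ q ∣ M) (hA : A.LiesOverPrime q)

/-- `O_a ≠ O_c`, `K`-rationally (field `ne₁₃` of the chain context) -/
theorem gaussInfK₂_O_ne_gaussZeroK₂_O :
    (gaussInfK₂ M q A hqM hA).O ≠ (gaussZeroK₂ M q A hqM hA).O :=
  restrict_O_inf_ne_O_zero hA _ _ (isGaussInf_gaussInf₂ M q A hqM hA)
    (isGaussZero₂_gaussZero₂ M q A hqM hA)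

/-- `y - x` is a unit of the `K`-rational `O_a` -/
theorem gaussInfK₂_redF_sub_ne_zero :
    (gaussInfK₂ M q A hqM hA).redF
      (yTopFix M q (A.inertiaSubgroupIn ℚ) - xTopFix M q (A.inertiaSubgroupIn ℚ)) ≠ 0 :=
  restrict_redF_inf_sub_ne_zero hA _ (isGaussInf_gaussInf₂ M q A hqM hA)

/-- `y - x` is a unit of the `K`-rational `O_c` -/
theorem gaussZeroK₂_redF_sub_ne_zero :
    (gaussZeroK₂ M q A hqM hA).redF
      (yTopFix M q (A.inertiaSubgroupIn ℚ) - xTopFix M q (A.inertiaSubgroupIn ℚ)) ≠ 0 :=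
  restrict_redF_zero_sub_ne_zero hA _ (isGaussInf_gaussInf₂ M q A hqM hA)
    (isGaussZero₂_gaussZero₂ M q A hqM hA)

end Concrete

end Fermat.Agent.S36lib.Val
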