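/-
S36lib / Val / RedJ  (helper9)  --  the reductions of `j = j(t)` (helper5's `Inst.RedJ`, fields
`red₁`, `red₃`) and of `j(t^(q²))` on the two unramified components, in the `K`-rational form.

With `H = A.inertiaSubgroupIn ℚ`, `jTop = Norm.xTopFix M q H : fixF (M q²) H` (helper5's
`Inst.jTop`), `yTopFix M q H = j(t^(q²))`, and `Gink.jK A M = j̄ : FRes A M`:

* `jRes_eq_jK`                         : `V.jRes M A = Gink.jK A M`  (my `Jd` lemmas are stated with `jRes`);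
* generic (`rₐ : RestrictHyp Da R (fixF (M q²) H)`, `Da` an `IsGaussInf`; `Dc` an `IsGaussZero₂`):
  `restrict_redF_inf_xTopFix = j̄`, `restrict_redF_inf_yTopFix = (j̄^q)^q`,
  `restrict_redF_zero_xTopFix = (j̄^q)^q`, `restrict_redF_zero_yTopFix = j̄`,
  and the memberships `xTopFix_mem_restrict_inf`, … ;
* concrete: **`gaussInfK₂_redF_jTop`**  (`= red₁`),  **`gaussZeroK₂_redF_jTop`**  (`= red₃`),
  `gaussInfK₂_redF_yTopFix`, `gaussZeroK₂_redF_yTopFix`, `jTop_mem_gaussInfK₂`, … .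
-/
import Mathlib
import Fermat.Agent.S36lib.Val.Fix

set_option autoImplicit false
set_option linter.unusedSectionVars false
set_option linter.unusedVariables false

noncomputable section

namespace Fermat.Agent.S36lib.Val

open ModularCurve Fermat.Agent.S18lib Fermat.Agent.S18lib.V Fermat.Agent.LSb.Val
open Fermat.Agent.LSb Fermat.Agent.S36lib.AL Fermat.Agent.S36lib.Eis
open Fermat.Agent.S36lib.Desc Fermat.Agent.S36lib.Desc2 Fermat.Agent.S36lib.Norm
open Fermat.Agent.S29lib.GH IsLocalRing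

local notation "Qb" => AlgebraicClosure ℚ
local notation "GQ" => (AlgebraicClosure ℚ ≃ₐ[ℚ] AlgebraicClosure ℚ)

/-- the two names of `j̄` -/
theorem jRes_eq_jK (M : ℕ) [NeZero M] (A : ValuationSubring Qb) :
    jRes M A = Gink.jK A M := by
  apply Subtype.ext
  rw [coe_jRes]
  rfl

section Rows

variable {M q : ℕ} [NeZero M] [NeZero q] [hq : Fact q.Prime] {A : ValuationSubring Qb}
  {hqM : ¬ q ∣ M} (hA : A.LiesOverPrime q)
variable {H : Subgroup GQ} {R : ValuationSubring (fixK H)}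
variable [Algebra (ResidueField R) (FRes A M)]
variable {Da Dc : GaussDatum A (FBar (M * q * q)) (FRes A M)}
variable (rₐ : RestrictHyp Da R (fixF (M * q * q) H))
variable (r_c : RestrictHyp Dc R (fixF (M * q * q) H))

theorem xTopFix_mem_restrict_inf (ha : IsGaussInf Da) :
    xTopFix M q H ∈ (restrictDatum rₐ).O :=
  xTop_mem_inf ha

theorem yTopFix_mem_restrict_inf (ha : IsGaussInf Da) :
    yTopFix M q H ∈ (restrictDatum rₐ).O :=
  yTop_mem_inf ha

/-- `red_a (j(t)) = j̄` -/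
theorem restrict_redF_inf_xTopFix (ha : IsGaussInf Da) :
    (restrictDatum rₐ).redF (xTopFix M q H) = Gink.jK A M := by
  rw [restrictDatum_redF, ← jRes_eq_jK]
  exact redF_inf_xTop ha

include hA in
/-- `red_a (j(t^(q²))) = (j̄ ^ q) ^ q` -/
theorem restrict_redF_inf_yTopFix (ha : IsGaussInf Da) :
    (restrictDatum rₐ).redF (yTopFix M q H) = (Gink.jK A M ^ q) ^ q := by
  rw [restrictDatum_redF, ← jRes_eq_jK]
  exact redF_inf_yTop hA ha

theorem xTopFix_mem_restrict_zero (ha : IsGaussInf Da) (hc : IsGaussZero₂ M q A hqM Da Dc) :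
    xTopFix M q H ∈ (restrictDatum r_c).O :=
  xTop_mem_zero ha hc

theorem yTopFix_mem_restrict_zero (ha : IsGaussInf Da) (hc : IsGaussZero₂ M q A hqM Da Dc) :
    yTopFix M q H ∈ (restrictDatum r_c).O :=
  yTop_mem_zero ha hc

include hA in
/-- `red_c (j(t)) = (j̄ ^ q) ^ q` -/
theorem restrict_redF_zero_xTopFix (ha : IsGaussInf Da) (hc : IsGaussZero₂ M q A hqM Da Dc) :
    (restrictDatum r_c).redF (xTopFix M q H) = (Gink.jK A M ^ q) ^ q := by
  rw [restrictDatum_redF, ← jRes_eq_jK]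
  exact redF_zero_xTop hA ha hc

/-- `red_c (j(t^(q²))) = j̄` -/
theorem restrict_redF_zero_yTopFix (ha : IsGaussInf Da) (hc : IsGaussZero₂ M q A hqM Da Dc) :
    (restrictDatum r_c).redF (yTopFix M q H) = Gink.jK A M := by
  rw [restrictDatum_redF, ← jRes_eq_jK]
  exact redF_zero_yTop ha hc

end Rows

section Concrete

open scoped Fermat.Agent.S36lib.Desc2

variable (M q : ℕ) [NeZero M] [NeZero q] [hq : Fact q.Prime] (A : ValuationSubring Qb)
  (hqM : ¬ q ∣ M) (hA : A.LiesOverPrime q)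

theorem jTop_mem_gaussInfK₂ :
    xTopFix M q (A.inertiaSubgroupIn ℚ) ∈ (gaussInfK₂ M q A hqM hA).O :=
  xTopFix_mem_restrict_inf _ (isGaussInf_gaussInf₂ M q A hqM hA)

theorem yTopFix_mem_gaussInfK₂ :
    yTopFix M q (A.inertiaSubgroupIn ℚ) ∈ (gaussInfK₂ M q A hqM hA).O :=
  yTopFix_mem_restrict_inf _ (isGaussInf_gaussInf₂ M q A hqM hA)

/-- **helper5's `RedJ.red₁`** for `V₁ = gaussInfK₂` -/
theorem gaussInfK₂_redF_jTop :
    (gaussInfK₂ M q A hqM hA).redF (xTopFix M q (A.inertiaSubgroupIn ℚ)) = Gink.jK A M :=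
  restrict_redF_inf_xTopFix _ (isGaussInf_gaussInf₂ M q A hqM hA)

theorem gaussInfK₂_redF_yTopFix :
    (gaussInfK₂ M q A hqM hA).redF (yTopFix M q (A.inertiaSubgroupIn ℚ)) =
      (Gink.jK A M ^ q) ^ q :=
  restrict_redF_inf_yTopFix hA _ (isGaussInf_gaussInf₂ M q A hqM hA)

theorem jTop_mem_gaussZeroK₂ :
    xTopFix M q (A.inertiaSubgroupIn ℚ) ∈ (gaussZeroK₂ M q A hqM hA).O :=
  xTopFix_mem_restrict_zero _ (isGaussInf_gaussInf₂ M q A hqM hA)
    (isGaussZero₂_gaussZero₂ M q A hqM hA)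

theorem yTopFix_mem_gaussZeroK₂ :
    yTopFix M q (A.inertiaSubgroupIn ℚ) ∈ (gaussZeroK₂ M q A hqM hA).O :=
  yTopFix_mem_restrict_zero _ (isGaussInf_gaussInf₂ M q A hqM hA)
    (isGaussZero₂_gaussZero₂ M q A hqM hA)

/-- **helper5's `RedJ.red₃`** for `V₃ = gaussZeroK₂` -/
theorem gaussZeroK₂_redF_jTop :
    (gaussZeroK₂ M q A hqM hA).redF (xTopFix M q (A.inertiaSubgroupIn ℚ)) =
      (Gink.jK A M ^ q) ^ q :=
  restrict_redF_zero_xTopFix hA _ (isGaussInf_gaussInf₂ M q A hqM hA)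
    (isGaussZero₂_gaussZero₂ M q A hqM hA)

theorem gaussZeroK₂_redF_yTopFix :
    (gaussZeroK₂ M q A hqM hA).redF (yTopFix M q (A.inertiaSubgroupIn ℚ)) = Gink.jK A M :=
  restrict_redF_zero_yTopFix _ (isGaussInf_gaussInf₂ M q A hqM hA)
    (isGaussZero₂_gaussZero₂ M q A hqM hA)

end Concrete

end Fermat.Agent.S36lib.Val
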