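/-
S36lib / Val / Ne  (helper9)

**The three valuation rings of the thick datum are pairwise different** (fields `ne₁₂`, `ne₁₃`,
`ne₂₃` of helper4's `J.ChainCtx`), for ALL `q` (no use of the ramification index).

* `ram_ne_of_redF` : generic — `V : GaussDatum R F F₁`, `W : Thick.RamGaussDatum R F F₂`, an element
  `g ∈ W.O` with `W.red g = 0` which is a unit of `V.O` (`V.redF g ≠ 0`) ⟹ `V.O ≠ W.O`;
* `restrict_O_inf_ne_ram`, `restrict_O_zero_ne_ram` : the `K`-rational `O_a`, `O_c` differ from the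
  ring of ANY ramified datum `W` on `fixF (M q q) H` in whose maximal ideal `y - x` lies
  (`y - x = yTopFix - xTopFix`; helper2's Eisenstein uniformizer, `red_ϖ`);
* `thick_ne₁₂`, `thick_ne₁₃`, `thick_ne₂₃` : the three fields for a `ThickDatum` whose `V₁`, `V₃` are
  restrictions of Gauss data at `∞` / `0` of level `M q q`.
-/
import Mathlib
import Fermat.Agent.S36lib.Val.Fix
import Fermat.Agent.S36lib.Thick.Datum

set_option autoImplicit false
set_option linter.unusedSectionVars false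
set_option linter.unusedVariables false
set_option linter.style.haveILetI false

noncomputable section

namespace Fermat.Agent.S36lib.Val

open ModularCurve Fermat.Agent.S18lib Fermat.Agent.S18lib.V Fermat.Agent.LSb.Val
open Fermat.Agent.LSb Fermat.Agent.S36lib.AL Fermat.Agent.S36lib.Eis
open Fermat.Agent.S36lib.Desc Fermat.Agent.S36lib.Desc2 Fermat.Agent.S36lib.Norm
open Fermat.Agent.S36lib.Thick IsLocalRing

local notation "Qb" => AlgebraicClosure ℚ
local notation "GQ" => (AlgebraicClosure ℚ ≃ₐ[ℚ] AlgebraicClosure ℚ)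

/-! ### generic -/

section Generic

variable {K : Type*} [Field K] {R : ValuationSubring K}
variable {F : Type*} [Field F] [Algebra K F]
variable {F₁ F₂ : Type*} [Field F₁] [Field F₂]
  [Algebra (IsLocalRing.ResidueField R) F₁] [Algebra (IsLocalRing.ResidueField R) F₂]

/-- a unit of the Gauss ring `V.O` lying in the maximal ideal of the ramified ring `W.O`
separates the two rings -/
theorem ram_ne_of_redF (V : GaussDatum R F F₁) (W : RamGaussDatum R F F₂) {g : F}
    (hg : g ∈ W.O) (hred : W.red ⟨g, hg⟩ = 0) (hred' : V.redF g ≠ 0) : V.O ≠ W.O := by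
  intro h
  have hg0 : g ≠ 0 := by
    rintro rfl
    exact hred' V.redF_zero
  have hinv : g⁻¹ ∈ W.O := by
    rw [← h]
    exact V.inv_mem_of_redF_ne_zero hred'
  have h1 : W.red ⟨g, hg⟩ * W.red ⟨g⁻¹, hinv⟩ = 1 := by
    rw [← map_mul]
    have : (⟨g, hg⟩ : W.O) * ⟨g⁻¹, hinv⟩ = 1 := Subtype.ext (mul_inv_cancel₀ hg0)
    rw [this, map_one]
  rw [hred, zero_mul] at h1
  exact zero_ne_one h1

end Generic

/-! ### level `M q q` -/

section Top

variable {M q : ℕ} [NeZero M] [NeZero q] [hq : Fact q.Prime] {A : ValuationSubring Qb}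
  {hqM : ¬ q ∣ M} (hA : A.LiesOverPrime q)
variable {H : Subgroup GQ} {R : ValuationSubring (fixK H)}
  [Algebra (ResidueField R) (FRes A M)]
variable {Da Dc : GaussDatum A (FBar (M * q * q)) (FRes A M)}
variable (rₐ : RestrictHyp Da R (fixF (M * q * q) H))
  (r_c : RestrictHyp Dc R (fixF (M * q * q) H))
variable {F₂ : Type*} [Field F₂] [Algebra (ResidueField R) F₂]

include hA in
/-- `O_a ≠ O_b` -/
theorem restrict_O_inf_ne_ram (ha : IsGaussInf Da)
    (W : RamGaussDatum R (fixF (M * q * q) H) F₂)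
    (hmem : yTopFix M q H - xTopFix M q H ∈ W.O)
    (hred : W.red ⟨yTopFix M q H - xTopFix M q H, hmem⟩ = 0) :
    (restrictDatum rₐ).O ≠ W.O :=
  ram_ne_of_redF (restrictDatum rₐ) W hmem hred (restrict_redF_inf_sub_ne_zero hA rₐ ha)

include hA in
/-- `O_c ≠ O_b` -/
theorem restrict_O_zero_ne_ram (ha : IsGaussInf Da) (hc : IsGaussZero₂ M q A hqM Da Dc)
    (W : RamGaussDatum R (fixF (M * q * q) H) F₂)
    (hmem : yTopFix M q H - xTopFix M q H ∈ W.O)
    (hred : W.red ⟨yTopFix M q H - xTopFix M q H, hmem⟩ = 0) :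
    (restrictDatum r_c).O ≠ W.O :=
  ram_ne_of_redF (restrictDatum r_c) W hmem hred (restrict_redF_zero_sub_ne_zero hA r_c ha hc)

/-! #### the three `ne` fields of a thick datum -/

variable {F₁ F₃ : Type*} [Field F₁] [Field F₃] [Algebra (ResidueField R) F₁]
  [Algebra (ResidueField R) F₃]

include hA in
theorem thick_ne₁₂ (ha : IsGaussInf Da)
    (D : ThickDatum R (fixF (M * q * q) H) (FRes A M) F₂ F₃)
    (h₁ : D.V₁ = restrictDatum rₐ)
    (hmem : yTopFix M q H - xTopFix M q H ∈ D.V₂.O)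
    (hred : D.V₂.red ⟨yTopFix M q H - xTopFix M q H, hmem⟩ = 0) : D.V₁.O ≠ D.V₂.O := by
  rw [h₁]
  exact restrict_O_inf_ne_ram hA rₐ ha D.V₂ hmem hred

include hA in
theorem thick_ne₁₃ (ha : IsGaussInf Da) (hc : IsGaussZero₂ M q A hqM Da Dc)
    (D : ThickDatum R (fixF (M * q * q) H) (FRes A M) F₂ (FRes A M))
    (h₁ : D.V₁ = restrictDatum rₐ) (h₃ : D.V₃ = restrictDatum r_c) : D.V₁.O ≠ D.V₃.O := by
  rw [h₁, h₃]
  exact restrict_O_inf_ne_O_zero hA rₐ r_c ha hc

include hA in
theorem thick_ne₂₃ (ha : IsGaussInf Da) (hc : IsGaussZero₂ M q A hqM Da Dc)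
    (D : ThickDatum R (fixF (M * q * q) H) F₁ F₂ (FRes A M))
    (h₃ : D.V₃ = restrictDatum r_c)
    (hmem : yTopFix M q H - xTopFix M q H ∈ D.V₂.O)
    (hred : D.V₂.red ⟨yTopFix M q H - xTopFix M q H, hmem⟩ = 0) : D.V₂.O ≠ D.V₃.O := by
  rw [h₃]
  exact (restrict_O_zero_ne_ram hA r_c ha hc D.V₂ hmem hred).symm

end Top

end Fermat.Agent.S36lib.Val
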