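/-
S36lib / Val / Triple  (helper9)  --  THE CONCRETE TRIPLE `(V₁, V₂, V₃)` OF THE MODULAR THICK DATUM:
helper5's `Inst.RedJ` record and helper4's (C5) `ne`-fields.

With `V₁ := Val.gaussInfK₂ M q A hqM hA` (`v_a = v₂₀`), `V₂ := Eis.ramGaussK M q A hqM hA hc`
(`v_b = v₁₁`, helper2's `Eis/Ram`), `V₃ := Val.gaussZeroK₂ M q A hqM hA` (`v_c = v₀₂`), all over
`(Kfix A, Wfix A)` on `fixF (M q²) (A.inertiaSubgroupIn ℚ)`, residue field `FRes A M` with the
`k_{Wfix A}`-structure `Inst.instAlgebraResW`: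

* `V₂K M q A hqM hA`   : `Eis.ramGaussK` at `hc := fun _ => rfl`;
* **`redJ_modular`**    : `Inst.RedJ (gaussInfK₂ …) (V₂K …) (gaussZeroK₂ …)`;
* `modThickK M q A hqM hA` (abbrev) `= Inst.modThick M q A hqM hA V₁ V₂ V₃`;
* **`modThickK_ne₁₂`, `modThickK_ne₁₃`, `modThickK_ne₂₃`** : the three rings are pairwise different
  (helper4's (C5) `ne`-fields of `J.ChainCtx`);
* **`modThickK_unif_pow`, `modThickK_unif_mem₁`, `modThickK_unif_inv_mem₁`, `modThickK_unif_mem₃`,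
  `modThickK_unif_inv_mem₃`** : the five uniformizer fields of `ThickCtx` (`ϖ = j(t^(q²)) − j(t)`,
  `π = q`, `e = q − 1`).
-/
import Mathlib
import Fermat.Agent.S36lib.Val.RedJ
import Fermat.Agent.S36lib.Val.Ne
import Fermat.Agent.S36lib.Eis.Ram
import Fermat.Agent.S36lib.Inst.Ctx

set_option autoImplicit false
set_option linter.unusedSectionVars false
set_option linter.unusedVariables false

noncomputable section

namespace Fermat.Agent.S36lib.Val

open ModularCurve Fermat.Agent.S18lib Fermat.Agent.S18lib.V Fermat.Agent.LSb.Val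
open Fermat.Agent.LSb Fermat.Agent.S36lib.AL Fermat.Agent.S36lib.Eis
open Fermat.Agent.S36lib.Desc Fermat.Agent.S36lib.Desc2 Fermat.Agent.S36lib.Norm
open Fermat.Agent.S36lib.Thick AlgebraicCurve
open Fermat.Agent.S29lib.GH IsLocalRing

local notation "Qb" => AlgebraicClosure ℚ
local notation "GQ" => (AlgebraicClosure ℚ ≃ₐ[ℚ] AlgebraicClosure ℚ)

variable (M q : ℕ) [NeZero M] [NeZero q] [hq : Fact q.Prime] (A : ValuationSubring Qb)
  (hqM : ¬ q ∣ M) (hA : A.LiesOverPrime q)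

/-- the `K`-rational `v_b = v₁₁` (helper2's `Eis.ramGaussK`) for the structure
`Inst.instAlgebraResW` -/
def V₂K : RamGaussDatum (Wfix A) (Inst.FTop M q A) (FRes A M) :=
  Eis.ramGaussK M q A hqM hA (fun _ => rfl)

theorem V₂K_unif :
    (V₂K M q A hqM hA).unif =
      yTopFix M q (A.inertiaSubgroupIn ℚ) - xTopFix M q (A.inertiaSubgroupIn ℚ) :=
  Eis.ramGaussK_unif M q A hqM hA _

theorem V₂K_sub_mem :
    yTopFix M q (A.inertiaSubgroupIn ℚ) - xTopFix M q (A.inertiaSubgroupIn ℚ) ∈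
      (V₂K M q A hqM hA).O := by
  rw [← V₂K_unif M q A hqM hA]
  exact (V₂K M q A hqM hA).unif_mem

theorem V₂K_red_sub :
    (V₂K M q A hqM hA).red ⟨yTopFix M q (A.inertiaSubgroupIn ℚ) -
      xTopFix M q (A.inertiaSubgroupIn ℚ), V₂K_sub_mem M q A hqM hA⟩ = 0 := by
  have h : (⟨yTopFix M q (A.inertiaSubgroupIn ℚ) - xTopFix M q (A.inertiaSubgroupIn ℚ),
      V₂K_sub_mem M q A hqM hA⟩ : (V₂K M q A hqM hA).O) =
      ⟨(V₂K M q A hqM hA).unif, (V₂K M q A hqM hA).unif_mem⟩ :=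
    Subtype.ext (V₂K_unif M q A hqM hA).symm
  rw [h]
  exact (V₂K M q A hqM hA).red_unif

/-! ### the three rings are pairwise different -/

/-- `O_a ≠ O_b` -/
theorem gaussInfK₂_O_ne_V₂K_O : (gaussInfK₂ M q A hqM hA).O ≠ (V₂K M q A hqM hA).O :=
  restrict_O_inf_ne_ram hA (restrictHyp_gaussInf₂ M q A hqM hA)
    (isGaussInf_gaussInf₂ M q A hqM hA) (V₂K M q A hqM hA) (V₂K_sub_mem M q A hqM hA)
    (V₂K_red_sub M q A hqM hA)

/-- `O_b ≠ O_c` -/
theorem V₂K_O_ne_gaussZeroK₂_O : (V₂K M q A hqM hA).O ≠ (gaussZeroK₂ M q A hqM hA).O :=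
  (restrict_O_zero_ne_ram hA (restrictHyp_gaussZero₂ M q A hqM hA)
    (isGaussInf_gaussInf₂ M q A hqM hA) (isGaussZero₂_gaussZero₂ M q A hqM hA)
    (V₂K M q A hqM hA) (V₂K_sub_mem M q A hqM hA) (V₂K_red_sub M q A hqM hA)).symm

section AnyV₂

variable {F₂ : Type*} [Field F₂] [Algebra (ResidueField (Wfix A)) F₂]
  (V₂' : RamGaussDatum (Wfix A) (Inst.FTop M q A) F₂)

/-- `O_a ≠ O_b` for any ramified datum with the ring of `Eis.ramGaussK` (e.g.
`Reg.ramWithUnif (V₂K …) ϖ h0 hv`, for which `hO := rfl`) -/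
theorem ne₁₂_of_O_eq (hO : V₂'.O = (V₂K M q A hqM hA).O) :
    (gaussInfK₂ M q A hqM hA).O ≠ V₂'.O := by
  rw [hO]
  exact gaussInfK₂_O_ne_V₂K_O M q A hqM hA

/-- `O_b ≠ O_c` for any ramified datum with the ring of `Eis.ramGaussK` -/
theorem ne₂₃_of_O_eq (hO : V₂'.O = (V₂K M q A hqM hA).O) :
    V₂'.O ≠ (gaussZeroK₂ M q A hqM hA).O := by
  rw [hO]
  exact V₂K_O_ne_gaussZeroK₂_O M q A hqM hA

end AnyV₂

/-- `O_a ≠ O_b` after a change of the uniformizer (helper8's `Reg.ramWithUnif`) -/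
theorem ne₁₂_ramWithUnif (ϖ : Inst.FTop M q A) (h0 : (V₂K M q A hqM hA).unif ≠ 0)
    (hv : (V₂K M q A hqM hA).O.valuation ϖ =
      (V₂K M q A hqM hA).O.valuation (V₂K M q A hqM hA).unif) :
    (gaussInfK₂ M q A hqM hA).O ≠ (Reg.ramWithUnif (V₂K M q A hqM hA) ϖ h0 hv).O :=
  gaussInfK₂_O_ne_V₂K_O M q A hqM hA

/-- `O_b ≠ O_c` after a change of the uniformizer (helper8's `Reg.ramWithUnif`) -/
theorem ne₂₃_ramWithUnif (ϖ : Inst.FTop M q A) (h0 : (V₂K M q A hqM hA).unif ≠ 0)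
    (hv : (V₂K M q A hqM hA).O.valuation ϖ =
      (V₂K M q A hqM hA).O.valuation (V₂K M q A hqM hA).unif) :
    (Reg.ramWithUnif (V₂K M q A hqM hA) ϖ h0 hv).O ≠ (gaussZeroK₂ M q A hqM hA).O :=
  V₂K_O_ne_gaussZeroK₂_O M q A hqM hA

variable [HasPrincipalDivisors (IsLocalRing.ResidueField A) (FRes A M)]
variable [HasPrincipalDivisors (IsLocalRing.ResidueField (Wfix A)) (FRes A M)]

/-- **helper5's `RedJ` for the concrete triple** -/
theorem redJ_modular :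
    Inst.RedJ (gaussInfK₂ M q A hqM hA) (V₂K M q A hqM hA) (gaussZeroK₂ M q A hqM hA) where
  red₁ := gaussInfK₂_redF_jTop M q A hqM hA
  red₂ := Eis.ramGaussK_redF_xTopFix M q A hqM hA _
  red₃ := gaussZeroK₂_redF_jTop M q A hqM hA

/-! ### the modular thick datum of the concrete triple and its `ne`-fields -/

/-- **the modular thick datum** of the concrete triple `(v₂₀, v₁₁, v₀₂)` -/
abbrev modThickK : ThickDatum (Wfix A) (Inst.FTop M q A) (FRes A M) (FRes A M) (FRes A M) :=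
  Inst.modThick M q A hqM hA (gaussInfK₂ M q A hqM hA) (V₂K M q A hqM hA)
    (gaussZeroK₂ M q A hqM hA)

@[simp] theorem modThickK_V₁ : (modThickK M q A hqM hA).V₁ = gaussInfK₂ M q A hqM hA := rfl
@[simp] theorem modThickK_V₂ : (modThickK M q A hqM hA).V₂ = V₂K M q A hqM hA := rfl
@[simp] theorem modThickK_V₃ : (modThickK M q A hqM hA).V₃ = gaussZeroK₂ M q A hqM hA := rfl

theorem modThickK_ne₁₂ : (modThickK M q A hqM hA).V₁.O ≠ (modThickK M q A hqM hA).V₂.O :=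
  gaussInfK₂_O_ne_V₂K_O M q A hqM hA

theorem modThickK_ne₁₃ : (modThickK M q A hqM hA).V₁.O ≠ (modThickK M q A hqM hA).V₃.O :=
  gaussInfK₂_O_ne_gaussZeroK₂_O M q A hqM hA

theorem modThickK_ne₂₃ : (modThickK M q A hqM hA).V₂.O ≠ (modThickK M q A hqM hA).V₃.O :=
  V₂K_O_ne_gaussZeroK₂_O M q A hqM hA

/-! ### the uniformizer fields of `ThickCtx` -/

theorem modThickK_ϖ :
    (modThickK M q A hqM hA).ϖ =
      yTopFix M q (A.inertiaSubgroupIn ℚ) - xTopFix M q (A.inertiaSubgroupIn ℚ) :=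
  V₂K_unif M q A hqM hA

theorem modThickK_π : (modThickK M q A hqM hA).π = ((q : ℕ) : Kfix A) := rfl

theorem modThickK_e : (modThickK M q A hqM hA).e = q - 1 := rfl

/-- `ϖ ^ (q − 1) = q · unit` in `O_b` -/
theorem modThickK_unif_pow :
    ∃ u : (modThickK M q A hqM hA).V₂.Oˣ,
      (modThickK M q A hqM hA).ϖ ^ (modThickK M q A hqM hA).e =
        algebraMap (Kfix A) (Inst.FTop M q A) (modThickK M q A hqM hA).π *
          ((u : (modThickK M q A hqM hA).V₂.O) : Inst.FTop M q A) :=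
  Eis.ramGaussK_unif_pow M q A hqM hA (fun _ => rfl)

theorem modThickK_unif_mem₁ :
    (modThickK M q A hqM hA).ϖ ∈ (modThickK M q A hqM hA).V₁.O := by
  rw [modThickK_ϖ]
  exact (gaussInfK₂ M q A hqM hA).O.sub_mem (yTopFix_mem_gaussInfK₂ M q A hqM hA)
    (jTop_mem_gaussInfK₂ M q A hqM hA)

theorem modThickK_unif_inv_mem₁ :
    ((modThickK M q A hqM hA).ϖ)⁻¹ ∈ (modThickK M q A hqM hA).V₁.O := by
  rw [modThickK_ϖ]
  exact (gaussInfK₂ M q A hqM hA).inv_mem_of_redF_ne_zero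
    (gaussInfK₂_redF_sub_ne_zero M q A hqM hA)

theorem modThickK_unif_mem₃ :
    (modThickK M q A hqM hA).ϖ ∈ (modThickK M q A hqM hA).V₃.O := by
  rw [modThickK_ϖ]
  exact (gaussZeroK₂ M q A hqM hA).O.sub_mem (yTopFix_mem_gaussZeroK₂ M q A hqM hA)
    (jTop_mem_gaussZeroK₂ M q A hqM hA)

theorem modThickK_unif_inv_mem₃ :
    ((modThickK M q A hqM hA).ϖ)⁻¹ ∈ (modThickK M q A hqM hA).V₃.O := by
  rw [modThickK_ϖ]
  exact (gaussZeroK₂ M q A hqM hA).inv_mem_of_redF_ne_zero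
    (gaussZeroK₂_redF_sub_ne_zero M q A hqM hA)

/-- the `RedJ` hypothesis of helper5's `Inst/Ctx` lemmas, for `modThickK` -/
theorem modThickK_redJ :
    Inst.RedJ (gaussInfK₂ M q A hqM hA) (V₂K M q A hqM hA) (gaussZeroK₂ M q A hqM hA) :=
  redJ_modular M q A hqM hA

end Fermat.Agent.S36lib.Val
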